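import Fermat.Agent.Eisenstein.Series

/-!
# Forms of weight two congruent to a constant

Four obstructions to the existence of a form of weight two on `Γ₀(p)` which is congruent to a
non-zero constant modulo a prime power.
-/

set_option autoImplicit false
set_option linter.style.haveILetI false

namespace FLTAgent.Eisenstein

noncomputable section

open PowerSeries

variable {p : ℕ} [hp : Fact p.Prime]

omit hp in
theorem linearIndependent_of_triangular {R ι : Type*} [CommRing R] [IsDomain R] [Fintype ι]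
    (x : ι → PowerSeries R) (e : ι → ℕ) (he : Function.Injective e)
    (h0 : ∀ i, coeff (e i) (x i) ≠ 0) (hlt : ∀ i, ∀ n < e i, coeff n (x i) = 0) :
    LinearIndependent R x := by
  classical
  rw [Fintype.linearIndependent_iff]
  intro c hc
  by_contra hne
  push Not at hne
  obtain ⟨i₁, hi₁⟩ := hne
  obtain ⟨i, hi, hmin⟩ := Finset.exists_min_image (Finset.univ.filter fun i => c i ≠ 0) e
    ⟨i₁, by simp [hi₁]⟩
  rw [Finset.mem_filter] at hi
  have h := congrArg (coeff (e i)) hc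
  rw [map_sum, map_zero, Finset.sum_eq_single i] at h
  · rw [coeff_smul, smul_eq_mul, mul_eq_zero] at h
    exact h.elim hi.2 (h0 i)
  · intro j _ hj
    rw [coeff_smul, smul_eq_mul]
    by_cases hcj : c j = 0
    · rw [hcj, zero_mul]
    · have hle := hmin j (by simp [hcj])
      have : e i < e j := lt_of_le_of_ne hle fun h' => hj (he h').symm
      rw [hlt j _ this, mul_zero]
  · simp

/-- Too many forms which are independent modulo a prime. -/
theorem false_of_triangular {ι : Type*} [Fintype ι] {k : ℤ} (l : ℕ) [Fact l.Prime]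
    (a : ι → PowerSeries ℤ) (ha : ∀ i, a i ∈ forms p k) (e : ι → ℕ) (he : Function.Injective e)
    (h0 : ∀ i, ((coeff (e i) (a i) : ℤ) : ZMod l) ≠ 0)
    (hlt : ∀ i, ∀ n < e i, ((coeff n (a i) : ℤ) : ZMod l) = 0)
    (hcard : (k * ((p + 1 : ℕ) : ℤ)).toNat / 12 + 1 < Fintype.card ι) : False := by
  classical
  set B := (k * ((p + 1 : ℕ) : ℤ)).toNat / 12
  have hdep : ¬ LinearIndependent ℤ fun i => fun n : Fin (B + 1) => coeff (n : ℕ) (a i) := by
    intro h
    have := h.fintype_card_le_finrank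
    rw [Module.finrank_fintype_fun_eq_card, Fintype.card_fin] at this
    omega
  rw [Fintype.linearIndependent_iff] at hdep
  push Not at hdep
  obtain ⟨c, hc, i₀, hi₀⟩ := hdep
  obtain ⟨c', hc', hgcd⟩ := Finset.extract_gcd c (s := Finset.univ) ⟨i₀, Finset.mem_univ i₀⟩
  have hd : Finset.univ.gcd c ≠ 0 := by
    rw [Ne, Finset.gcd_eq_zero_iff]
    exact fun h => hi₀ (h i₀ (Finset.mem_univ _))
  have hS : ∑ i, c' i • a i = 0 := by
    refine eq_zero_of_coeff (Submodule.sum_mem _ fun i _ => Submodule.smul_mem _ _ (ha i)) ?_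
    intro n hn
    have hn' := congrFun hc ⟨n, Nat.lt_succ_of_le hn⟩
    simp only [Finset.sum_apply, Pi.smul_apply, smul_eq_mul, Pi.zero_apply] at hn'
    rw [Finset.sum_congr rfl (fun i _ => by rw [hc' i (Finset.mem_univ i), mul_assoc]),
      ← Finset.mul_sum, mul_eq_zero] at hn'
    rw [map_sum]
    rw [Finset.sum_congr rfl fun i _ => (map_zsmul (coeff n) (c' i) (a i)).trans (smul_eq_mul _ _)]
    exact hn'.resolve_left hd
  have hind := linearIndependent_of_triangular
    (fun i => PowerSeries.map (Int.castRingHom (ZMod l)) (a i)) e he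
    (fun i => by simpa [coeff_map] using h0 i) (fun i n hn => by simpa [coeff_map] using hlt i n hn)
  rw [Fintype.linearIndependent_iff] at hind
  have h0' := hind (fun i => (c' i : ZMod l)) (by
    have h := congrArg (PowerSeries.map (Int.castRingHom (ZMod l))) hS
    rw [map_sum, map_zero] at h
    simpa only [map_zsmul, ← Int.cast_smul_eq_zsmul (ZMod l)] using h)
  have hdvd : (l : ℤ) ∣ Finset.univ.gcd c' :=
    Finset.dvd_gcd fun i _ => (ZMod.intCast_zmod_eq_zero_iff_dvd _ _).mp (h0' i)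
  rw [hgcd] at hdvd
  have := Int.le_of_dvd one_pos hdvd
  have := (Fact.out : l.Prime).two_le
  omega

omit hp in
theorem dvd_eq {M a b : ℤ} (h : M ∣ a) (e : b = a) : M ∣ b := e ▸ h

omit hp in
/-- The product of two series which are almost constant. -/
theorem dvd_coeff_mul_sub (x y : PowerSeries ℤ) (d e : ℤ) (hx : ∀ n, n ≠ 0 → d ∣ coeff n x)
    (hy : ∀ n, n ≠ 0 → e ∣ coeff n y) (n : ℕ) (hn : n ≠ 0) :
    d * e ∣ coeff n (x * y) - (coeff 0 x * coeff n y + coeff n x * coeff 0 y) := by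
  set x' := x - C (coeff 0 x) with hx'
  set y' := y - C (coeff 0 y) with hy'
  have hdx : ∀ m, d ∣ coeff m x' := by
    intro m
    rcases eq_or_ne m 0 with rfl | hm
    · simp [hx']
    · rw [hx', map_sub, coeff_C, if_neg hm, sub_zero]; exact hx m hm
  have hey : ∀ m, e ∣ coeff m y' := by
    intro m
    rcases eq_or_ne m 0 with rfl | hm
    · simp [hy']
    · rw [hy', map_sub, coeff_C, if_neg hm, sub_zero]; exact hy m hm
  have h : d * e ∣ coeff n (x' * y') := by
    rw [coeff_mul]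
    exact Finset.dvd_sum fun ij _ => mul_dvd_mul (hdx _) (hey _)
  have hxy : x * y = x' * y' + C (coeff 0 x) * y' + C (coeff 0 y) * x' +
      C (coeff 0 x * coeff 0 y) := by
    rw [hx', hy', map_mul]
    ring
  have : coeff n (x * y) - (coeff 0 x * coeff n y + coeff n x * coeff 0 y) = coeff n (x' * y') := by
    rw [hxy, map_add, map_add, map_add, coeff_C_mul, coeff_C_mul, coeff_C, if_neg hn, hx', hy',
      map_sub, map_sub, coeff_C, coeff_C, if_neg hn, if_neg hn]
    ring
  rw [this]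
  exact h

omit hp in
/-- `∑ a(n) X^(2^i n)`. -/
def spread (f : PowerSeries ℤ) (i : ℕ) : PowerSeries ℤ :=
  PowerSeries.mk fun n => if 2 ^ i ∣ n then coeff (n / 2 ^ i) f else 0

omit hp in
theorem coeff_spread (f : PowerSeries ℤ) (i n : ℕ) :
    coeff n (spread f i) = if 2 ^ i ∣ n then coeff (n / 2 ^ i) f else 0 :=
  coeff_mk _ _

omit hp in
theorem tSeries_spread_zero (f : PowerSeries ℤ) (w : ℕ) :
    tSeries w 2 f = upSeries 2 f + C ((2 : ℤ) ^ w) * spread f 1 := by
  ext n
  simp only [coeff_tSeries, map_add, coeff_upSeries, coeff_C_mul, coeff_spread, pow_one]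
  split_ifs <;> simp

omit hp in
theorem tSeries_spread (f : PowerSeries ℤ) (w i : ℕ) :
    tSeries w 2 (spread f (i + 1)) = spread f i + C ((2 : ℤ) ^ w) * spread f (i + 2) := by
  ext n
  simp only [coeff_tSeries, map_add, coeff_C_mul, coeff_spread]
  have h1 : 2 ^ (i + 1) ∣ n * 2 ↔ 2 ^ i ∣ n := by
    rw [pow_succ]
    exact Nat.mul_dvd_mul_iff_right two_pos
  have h1' : n * 2 / 2 ^ (i + 1) = n / 2 ^ i := by
    rw [pow_succ]
    exact Nat.mul_div_mul_right _ _ two_pos
  simp only [h1, h1']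
  congr 1
  by_cases h2 : 2 ∣ n
  · obtain ⟨m, rfl⟩ := h2
    have h3 : 2 ^ (i + 2) ∣ 2 * m ↔ 2 ^ (i + 1) ∣ m := by
      rw [pow_succ' 2 (i + 1)]
      exact Nat.mul_dvd_mul_iff_left two_pos
    have h3' : 2 * m / 2 ^ (i + 2) = m / 2 ^ (i + 1) := by
      rw [pow_succ' 2 (i + 1)]
      exact Nat.mul_div_mul_left _ _ two_pos
    simp only [dvd_mul_right, if_true, h3, h3', Nat.mul_div_cancel_left _ two_pos]
    norm_num
  · have : ¬ 2 ^ (i + 2) ∣ n := fun h => h2 (dvd_trans (dvd_pow_self 2 (by omega)) h)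
    simp [h2, this]

/-- No form of weight two is congruent to a unit constant modulo `l ^ (k + 1)`, where `l ^ k` is
the exact power of the odd prime `l` dividing `6`, once a cusp form has first coefficient prime
to `l`. -/
theorem false_of_const_odd (hp2 : p ≠ 2) {l k : ℕ} [hl : Fact l.Prime] (hl2 : l ≠ 2)
    {u : ℤ} (h6 : (6 : ℤ) = (l : ℤ) ^ k * u) (hu : ¬ (l : ℤ) ∣ u)
    {g f : PowerSeries ℤ} (hg : g ∈ forms p 2) (hf : f ∈ forms p 2)
    (hf0 : coeff 0 f = 0) (hf1 : ¬ (l : ℤ) ∣ coeff 1 f) (hg0 : ¬ (l : ℤ) ∣ coeff 0 g)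
    (hgn : ∀ n, n ≠ 0 → (l : ℤ) ^ (k + 1) ∣ coeff n g) : False := by
  set M : ℤ := (l : ℤ) ^ (k + 1) with hM
  have hlp : Prime (l : ℤ) := Nat.prime_iff_prime_int.mp hl.out
  have hl0 : (l : ℤ) ≠ 0 := hlp.ne_zero
  let P : PowerSeries ℤ → Prop := fun x => ∃ G ∈ forms p 4, ∀ n, M ∣ coeff n G - coeff n x
  have hPadd : ∀ x y, P x → P y → P (x + y) := by
    rintro x y ⟨G, hG, hGx⟩ ⟨G', hG', hGy⟩
    exact ⟨G + G', add_mem hG hG', fun n => dvd_eq (dvd_add (hGx n) (hGy n))
      (by rw [map_add, map_add]; ring)⟩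
  have hPC : ∀ (c : ℤ) x, P x → P (C c * x) := by
    rintro c x ⟨G, hG, hGx⟩
    exact ⟨C c * G, C_mul_mem_forms c hG, fun n => dvd_eq (dvd_mul_of_dvd_right (hGx n) c)
      (by rw [coeff_C_mul, coeff_C_mul]; ring)⟩
  have hPcongr : ∀ x y, P x → (∀ n, M ∣ coeff n x - coeff n y) → P y := by
    rintro x y ⟨G, hG, hGx⟩ h
    exact ⟨G, hG, fun n => dvd_eq (dvd_add (hGx n) (h n)) (by ring)⟩
  have hunit : ∀ c : ℤ, ¬ (l : ℤ) ∣ c → ∀ x, P (C c * x) → P x := by
    intro c hc x hx
    obtain ⟨s, t, hst⟩ := ((hlp.coprime_iff_not_dvd.mpr hc).pow_left (m := k + 1))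
    refine hPcongr _ _ (hPC t _ hx) fun n => ⟨-s * coeff n x, ?_⟩
    simp only [coeff_C_mul, hM]
    linear_combination (coeff n x) * hst
  -- forms of weight two
  have h2 : ∀ x ∈ forms p 2, P x := by
    intro x hx
    refine hunit (coeff 0 g) hg0 x ⟨g * x, congr_mem_forms (mul_mem_forms hg hx) (by norm_num),
      fun n => ?_⟩
    have hg' : ∀ m, M ∣ coeff m (g - C (coeff 0 g)) := by
      intro m
      rcases eq_or_ne m 0 with rfl | hm
      · simp
      · rw [map_sub, coeff_C, if_neg hm, sub_zero]; exact hgn m hm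
    have : coeff n (g * x) - coeff n (C (coeff 0 g) * x) = coeff n ((g - C (coeff 0 g)) * x) := by
      rw [sub_mul, map_sub]
    rw [this, coeff_mul]
    exact Finset.dvd_sum fun ij _ => dvd_mul_of_dvd_left (hg' _) _
  have hT : ∀ x, P x → P (tSeries 3 2 x) := by
    rintro x ⟨G, hG, hGx⟩
    refine ⟨tSeries 3 2 G, congr_mem_forms (tSeries_mem_forms (w := 3) Nat.prime_two (Ne.symm hp2)
      (congr_mem_forms hG (by norm_num))) (by norm_num), fun n => ?_⟩
    simp only [coeff_tSeries]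
    split_ifs
    · refine dvd_eq (dvd_add (hGx (n * 2)) (dvd_mul_of_dvd_right (hGx (n / 2)) ((2 : ℤ) ^ 3))) ?_
      push_cast
      ring
    · simpa using hGx (n * 2)
  have h20 : ¬ (l : ℤ) ∣ (2 : ℤ) ^ 3 := fun h => hl2 <| by
    have := hlp.dvd_of_dvd_pow h
    exact (Nat.prime_dvd_prime_iff_eq hl.out Nat.prime_two).mp (by exact_mod_cast this)
  have hind : ∀ i, P (C 6 * spread f i) ∧ P (C 6 * spread f (i + 1)) := by
    intro i
    induction i with
    | zero =>
      have hf' : spread f 0 = f := by ext n; simp [coeff_spread]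
      refine ⟨hPC 6 _ (hf'.symm ▸ h2 f hf), ?_⟩
      have hT1 := h2 _ (congr_mem_forms (tSeries_mem_forms (w := 1) Nat.prime_two (Ne.symm hp2)
        (congr_mem_forms hf (by norm_num))) (by norm_num))
      have h := hPadd _ _ (hT f (h2 f hf)) (hPC (-1) _ hT1)
      convert h using 1
      rw [tSeries_spread_zero, tSeries_spread_zero]
      ext n
      simp only [map_add, coeff_C_mul]
      ring
    | succ i ih =>
      refine ⟨ih.2, hunit _ h20 _ ?_⟩
      have h := hPadd _ _ (hT _ ih.2) (hPC (-1) _ ih.1)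
      convert h using 1
      ext n
      have e := congrArg (coeff n) (tSeries_spread f 3 i)
      simp only [map_add, coeff_C_mul, coeff_tSeries] at e ⊢
      split_ifs at e ⊢
      · linear_combination (-6 : ℤ) * e
      · linear_combination (-6 : ℤ) * e
  -- divide by `l ^ k`
  have hdiv : ∀ i, ∃ G ∈ forms p 4, ∀ n, (l : ℤ) ∣ coeff n G - u * coeff n (spread f i) := by
    intro i
    obtain ⟨G, hG, hGi⟩ := (hind i).1
    have hk : ∀ n, (l : ℤ) ^ k ∣ coeff n G := by
      intro n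
      have h1 : (l : ℤ) ^ k ∣ coeff n G - coeff n (C 6 * spread f i) :=
        dvd_trans (pow_dvd_pow _ (Nat.le_succ k)) (hGi n)
      have h2 : (l : ℤ) ^ k ∣ coeff n (C 6 * spread f i) := by
        rw [coeff_C_mul, h6]
        exact dvd_mul_of_dvd_left (dvd_mul_right _ _) _
      simpa using dvd_add h1 h2
    choose G' hG' using hk
    have hGG : C ((l : ℤ) ^ k) * PowerSeries.mk G' = G := by
      ext n
      rw [coeff_C_mul, coeff_mk, hG' n]
    refine ⟨PowerSeries.mk G', of_C_mul_mem_forms (pow_ne_zero k hl0) (hGG.symm ▸ hG), fun n => ?_⟩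
    have h := hGi n
    rw [coeff_C_mul, hG' n, h6, mul_assoc, ← mul_sub, hM, pow_succ] at h
    rw [coeff_mk]
    exact (mul_dvd_mul_iff_left (pow_ne_zero k hl0)).mp h
  choose G hG hGl using hdiv
  set B := ((4 : ℤ) * ((p + 1 : ℕ) : ℤ)).toNat / 12
  have hGl' : ∀ i n, ((coeff n (G i) : ℤ) : ZMod l) = (u : ZMod l) * (coeff n (spread f i) : ℤ) := by
    intro i n
    have := (ZMod.intCast_zmod_eq_zero_iff_dvd _ _).mpr (hGl i n)
    push_cast at this
    exact sub_eq_zero.mp this
  refine false_of_triangular (p := p) l (fun i : Fin (B + 2) => G i) (fun i => hG i)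
    (fun i => 2 ^ (i : ℕ)) (fun i j h => Fin.ext (Nat.pow_right_injective le_rfl h)) ?_ ?_
    (by rw [Fintype.card_fin]; omega)
  · intro i
    rw [hGl', coeff_spread, if_pos dvd_rfl, Nat.div_self (by positivity), ← Int.cast_mul, Ne,
      ZMod.intCast_zmod_eq_zero_iff_dvd, hlp.dvd_mul]
    exact fun h => h.elim hu hf1
  · intro i n hn
    rw [hGl', coeff_spread]
    split_ifs with h
    · rw [Nat.eq_zero_of_dvd_of_lt h hn, Nat.zero_div, hf0]
      simp
    · simp

omit hp in
theorem sigma_three_prime_sq {q : ℕ} (hq : q.Prime) :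
    ArithmeticFunction.sigma 3 (q ^ 2) = 1 + q ^ 3 + q ^ 6 := by
  rw [ArithmeticFunction.sigma_apply_prime_pow hq]
  simp [Finset.sum_range_succ]

/-- For `p ≡ 1 (mod 3)` no form of weight two is congruent to a unit modulo `3`. -/
theorem false_of_const_three (hp3 : p % 3 = 1) {g : PowerSeries ℤ} (hg : g ∈ forms p 2)
    (hg0 : ¬ (3 : ℤ) ∣ coeff 0 g) (hgn : ∀ n, n ≠ 0 → (3 : ℤ) ∣ coeff n g) : False := by
  set c := coeff 0 g with hc
  have hpp : p ≠ 0 := hp.out.ne_zero
  have hUn : ∀ n, n ≠ 0 → (3 : ℤ) ∣ coeff n (upSeries p g) := fun n hn => by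
    rw [coeff_upSeries]; exact hgn _ (Nat.mul_ne_zero hn hpp)
  have hU0 : coeff 0 (upSeries p g) = c := by rw [coeff_upSeries, zero_mul]
  have hUU : ∀ n, coeff (n * p * p) g = coeff n g := by
    intro n
    have h := congrArg (coeff n) (upSeries_upSeries hg)
    rwa [coeff_upSeries, coeff_upSeries] at h
  have key : ∀ n, n ≠ 0 → (9 : ℤ) ∣ 2 * c * ((p : ℤ) + 1) * coeff n g -
      240 * ((p : ℤ) + 1) * c ^ 2 * (ArithmeticFunction.sigma 3 n : ℕ) := by
    intro n hn
    have h := trace_mul_eq hg hg n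
    have h00 : coeff 0 (C (p : ℤ) * (g * g) + upSeries p (upSeries p g * upSeries p g)) =
        ((p : ℤ) + 1) * c ^ 2 := by
      rw [map_add, coeff_C_mul, coeff_upSeries, zero_mul, coeff_zero_eq_constantCoeff_apply,
        coeff_zero_eq_constantCoeff_apply, map_mul, map_mul, ← coeff_zero_eq_constantCoeff_apply,
        ← coeff_zero_eq_constantCoeff_apply, hU0]
      ring
    rw [h00, coeff_e4, if_neg hn, map_add, coeff_C_mul, coeff_upSeries] at h
    have h1 := dvd_coeff_mul_sub g g 3 3 hgn hgn n hn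
    have h2 := dvd_coeff_mul_sub (upSeries p g) (upSeries p g) 3 3 hUn hUn (n * p)
      (Nat.mul_ne_zero hn hpp)
    rw [coeff_upSeries, coeff_upSeries, hUU, zero_mul] at h2
    rw [show (3 : ℤ) * 3 = 9 by norm_num] at h1 h2
    have := dvd_add (dvd_mul_of_dvd_right h1 (p : ℤ)) h2
    refine dvd_neg.mp (dvd_eq this ?_)
    linear_combination h.symm
  have e1 := key 1 one_ne_zero
  have e2 := key (p ^ 2) (pow_ne_zero 2 hpp)
  rw [sigma_three_prime_sq hp.out] at e2
  rw [show p ^ 2 = 1 * p * p by ring, hUU 1] at e2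
  simp only [ArithmeticFunction.sigma_one, Nat.cast_one, mul_one] at e1
  push_cast at e2
  have hp9 : (3 : ℤ) ∣ (p : ℤ) - 1 := by omega
  have h3 := dvd_sub e2 e1
  have hfact : (3 : ℤ) ∣ ((p : ℤ) ^ 3 + (p : ℤ) ^ 6 + 1) := by
    obtain ⟨t, ht⟩ := hp9
    rw [show (p : ℤ) = 3 * t + 1 by linear_combination ht]
    exact ⟨_, show _ = 3 * (243 * t ^ 6 + 486 * t ^ 5 + 405 * t ^ 4 + 189 * t ^ 3 + 54 * t ^ 2 + 9 * t + 1) by ring⟩
  have hbad : (9 : ℤ) ∣ 240 * ((p : ℤ) + 1) * c ^ 2 := by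
    have h9 : (9 : ℤ) ∣ 240 * ((p : ℤ) + 1) * c ^ 2 * ((p : ℤ) ^ 3 + (p : ℤ) ^ 6 + 1) := by
      rw [show (9 : ℤ) = 3 * 3 by norm_num]
      exact mul_dvd_mul (dvd_mul_of_dvd_left (dvd_mul_of_dvd_left (by norm_num) _) _) hfact
    exact dvd_eq (dvd_add h3 h9) (by ring)
  have h3' : (3 : ℤ) ∣ 80 * ((p : ℤ) + 1) * c ^ 2 := by
    rw [show 240 * ((p : ℤ) + 1) * c ^ 2 = 3 * (80 * ((p : ℤ) + 1) * c ^ 2) by ring,
      show (9 : ℤ) = 3 * 3 by norm_num] at hbad
    exact (mul_dvd_mul_iff_left (by norm_num)).mp hbad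
  have hP3 : Prime (3 : ℤ) := Int.prime_three
  rcases hP3.dvd_mul.mp h3' with h | h
  · rcases hP3.dvd_mul.mp h with h | h
    · norm_num at h
    · omega
  · exact hg0 (hP3.dvd_of_dvd_pow h)

/-- For `p ≡ 1 (mod 4)` no form of weight two is congruent to a unit modulo `4`. -/
theorem false_of_const_four (hp4 : p % 4 = 1) {g : PowerSeries ℤ} (hg : g ∈ forms p 2)
    (hg0 : ¬ (2 : ℤ) ∣ coeff 0 g) (hgn : ∀ n, n ≠ 0 → (4 : ℤ) ∣ coeff n g) : False := by
  set c := coeff 0 g with hc
  set E := eisSeries p with hE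
  have hpp : p ≠ 0 := hp.out.ne_zero
  have hEn : ∀ n, n ≠ 0 → (24 : ℤ) ∣ coeff n E := fun n hn => by
    rw [hE, coeff_eisSeries, if_neg hn]; exact dvd_mul_right _ _
  have hE0 : coeff 0 E = (p : ℤ) - 1 := by rw [hE, coeff_eisSeries, if_pos rfl]
  have hone : sigmaPrime p 1 = 1 := by
    rw [sigmaPrime, Finset.sum_filter, Nat.divisors_one, Finset.sum_singleton, if_pos]
    exact fun h => hp.out.one_lt.ne' (Nat.dvd_one.mp h)
  have hE1 : coeff 1 E = 24 := by rw [hE, coeff_eisSeries, if_neg one_ne_zero, hone]; simp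
  have hUU : ∀ (x : PowerSeries ℤ), x ∈ forms p 2 → ∀ n, coeff (n * p * p) x = coeff n x := by
    intro x hx n
    have h := congrArg (coeff n) (upSeries_upSeries hx)
    rwa [coeff_upSeries, coeff_upSeries] at h
  have h := trace_mul_eq hg (eisSeries_mem_forms (p := p)) 1
  have h00 : coeff 0 (C (p : ℤ) * (g * E) + upSeries p (upSeries p g * upSeries p E)) =
      ((p : ℤ) + 1) * c * ((p : ℤ) - 1) := by
    rw [map_add, coeff_C_mul, coeff_upSeries, zero_mul, coeff_zero_eq_constantCoeff_apply,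
      coeff_zero_eq_constantCoeff_apply, map_mul, map_mul, ← coeff_zero_eq_constantCoeff_apply,
      ← coeff_zero_eq_constantCoeff_apply, ← coeff_zero_eq_constantCoeff_apply,
      ← coeff_zero_eq_constantCoeff_apply, coeff_upSeries, coeff_upSeries, zero_mul, hE0]
    ring
  rw [← hE, h00, coeff_e4, if_neg one_ne_zero, map_add, coeff_C_mul, coeff_upSeries, one_mul] at h
  have h1 := dvd_coeff_mul_sub g E 4 24 hgn hEn 1 one_ne_zero
  have h2 := dvd_coeff_mul_sub (upSeries p g) (upSeries p E) 4 24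
    (fun n hn => by rw [coeff_upSeries]; exact hgn _ (Nat.mul_ne_zero hn hpp))
    (fun n hn => by rw [coeff_upSeries]; exact hEn _ (Nat.mul_ne_zero hn hpp)) p hpp
  have a1 : coeff (p * p) g = coeff 1 g := by simpa using hUU g hg 1
  have a2 : coeff (p * p) E = coeff 1 E := by simpa using hUU E eisSeries_mem_forms 1
  rw [coeff_upSeries, coeff_upSeries, coeff_upSeries, coeff_upSeries, a1, a2, zero_mul, hE0, hE1,
    ← hc] at h2
  rw [hE0, hE1, ← hc] at h1
  have hg1 := hgn 1 one_ne_zero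
  obtain ⟨r, hr⟩ : (4 : ℤ) ∣ (p : ℤ) - 1 := by omega
  obtain ⟨s, hs⟩ := hg1
  obtain ⟨c', hc'⟩ : ∃ c', c = 2 * c' + 1 := ⟨c / 2, by omega⟩
  have h96 : (32 : ℤ) ∣ 4 * 24 := by norm_num
  have hsum := dvd_add (dvd_mul_of_dvd_right (h96.trans h1) (p : ℤ)) (h96.trans h2)
  -- the main term is `16` modulo `32`
  have hmain : (32 : ℤ) ∣ ((p : ℤ) + 1) * c * ((p : ℤ) - 1) *
      (240 * ((ArithmeticFunction.sigma 3 1 : ℕ) : ℤ)) -
        ((p : ℤ) + 1) * (24 * c + ((p : ℤ) - 1) * coeff 1 g) := by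
    refine dvd_eq hsum ?_
    linear_combination -h
  rw [show (p : ℤ) = 4 * r + 1 by linear_combination hr, hs, hc'] at hmain
  obtain ⟨t, ht⟩ := hmain
  simp only [ArithmeticFunction.sigma_one, Nat.cast_one, mul_one] at ht
  ring_nf at ht
  omega

/-! ### Congruences modulo eight -/

omit hp in
theorem sigma_five_sub_sigma_three (n : ℕ) :
    (8 : ℤ) ∣ ((ArithmeticFunction.sigma 5 n : ℕ) : ℤ) - ((ArithmeticFunction.sigma 3 n : ℕ) : ℤ) := by
  rw [ArithmeticFunction.sigma_apply, ArithmeticFunction.sigma_apply]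
  push_cast
  rw [← Finset.sum_sub_distrib]
  refine Finset.dvd_sum fun d _ => (ZMod.intCast_zmod_eq_zero_iff_dvd _ 8).mp ?_
  push_cast
  have : ∀ x : ZMod 8, x ^ 5 - x ^ 3 = 0 := by decide
  exact this _

omit hp in
theorem coeff_sq_two (x : PowerSeries (ZMod 2)) (n : ℕ) :
    coeff n (x * x) = if 2 ∣ n then coeff (n / 2) x else 0 := by
  classical
  rw [coeff_mul]
  have h2 : ∀ z : ZMod 2, z + z = 0 := by decide
  have hsq : ∀ z : ZMod 2, z * z = z := by decide
  split_ifs with hn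
  · obtain ⟨j, rfl⟩ := hn
    rw [Nat.mul_div_cancel_left _ two_pos,
      ← Finset.add_sum_erase _ _ (show (j, j) ∈ Finset.HasAntidiagonal.antidiagonal (2 * j) by
        simp; omega), hsq]
    rw [Finset.sum_involution (fun ij _ => (ij.2, ij.1))]
    · exact add_zero _
    · intro a _
      rw [mul_comm (coeff a.2 x)]
      exact h2 _
    · intro a ha _ h
      rw [Finset.mem_erase, Finset.HasAntidiagonal.mem_antidiagonal] at ha
      rw [Prod.ext_iff] at h
      simp only at h
      exact ha.1 (Prod.ext (by omega) (by omega))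
    · intro a ha
      rw [Finset.mem_erase, Finset.HasAntidiagonal.mem_antidiagonal] at ha ⊢
      refine ⟨fun h => ha.1 ?_, by simp only; omega⟩
      rw [Prod.ext_iff] at h ⊢
      simp only at h
      exact ⟨h.2, h.1⟩
    · intros; rfl
  · refine Finset.sum_involution (fun ij _ => (ij.2, ij.1)) ?_ ?_ ?_ ?_
    · intro a _
      rw [mul_comm (coeff a.2 x)]
      exact h2 _
    · intro a ha _ h
      rw [Finset.HasAntidiagonal.mem_antidiagonal] at ha
      rw [Prod.ext_iff] at h
      simp only at h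
      omega
    · intro a ha
      rw [Finset.HasAntidiagonal.mem_antidiagonal] at ha ⊢
      omega
    · intros; rfl

/-- For odd `p` no form of weight two is congruent to a unit modulo `8`. -/
theorem false_of_const_eight (hp2 : p ≠ 2) {g : PowerSeries ℤ} (hg : g ∈ forms p 2)
    (hg0 : ¬ (2 : ℤ) ∣ coeff 0 g) (hgn : ∀ n, n ≠ 0 → (8 : ℤ) ∣ coeff n g) : False := by
  classical
  have hp3 : 3 ≤ p := by have := hp.out.two_le; omega
  set c := coeff 0 g
  have hH : ∀ n, ∃ h : ℤ, coeff n (g - C c) = 8 * h := by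
    intro n
    rcases eq_or_ne n 0 with rfl | hn
    · exact ⟨0, by simp [c]⟩
    · rw [map_sub, coeff_C, if_neg hn, sub_zero]; exact hgn n hn
  choose h hh using hH
  set H := PowerSeries.mk h
  have hgH : g = C c + 8 * H := by
    rw [show (8 : PowerSeries ℤ) = C 8 by rw [map_ofNat]]
    ext n
    have := hh n
    rw [map_sub] at this
    rw [map_add, coeff_C_mul, coeff_mk, ← this]
    ring
  choose k hk using sigma_five_sub_sigma_three
  set A := sigmaSeries 3
  set K := PowerSeries.mk k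
  have hB : sigmaSeries 5 = A + 8 * K := by
    rw [show (8 : PowerSeries ℤ) = C 8 by rw [map_ofNat]]
    ext n
    rw [map_add, coeff_C_mul, coeff_mk, coeff_sigmaSeries, coeff_sigmaSeries, ← hk n]
    ring
  set G : PowerSeries ℤ := -27 * C c ^ 4 * A - 675 * C c ^ 4 * A ^ 2 - 126 * C c ^ 4 * K +
    8 * C c * H ^ 3 + 16 * H ^ 4 - 90 * C c ^ 3 * A * H - 360 * C c ^ 2 * A * H ^ 2 -
    126 * C c ^ 3 * (A + 8 * K) * H with hG
  have hQ : C 256 * G = g ^ 4 - C (6 * c ^ 2) * (e4 * g ^ 2) + C (8 * c ^ 3) * (e6 * g) -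
      C (3 * c ^ 4) * e4 ^ 2 := by
    rw [hG, e4, e6, hB, hgH]
    simp only [map_mul, map_pow, map_ofNat]
    ring
  have hG8 : G ∈ forms p 8 := by
    refine of_C_mul_mem_forms (c := 256) (by norm_num) ?_
    rw [hQ]
    refine sub_mem (add_mem (sub_mem (congr_mem_forms (pow_mem_forms hg 4) (by norm_num))
      (C_mul_mem_forms _ ?_)) (C_mul_mem_forms _ ?_)) (C_mul_mem_forms _ ?_)
    · exact congr_mem_forms (mul_mem_forms e4_mem_forms (pow_mem_forms hg 2)) (by norm_num)
    · exact congr_mem_forms (mul_mem_forms e6_mem_forms hg) (by norm_num)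
    · exact congr_mem_forms (pow_mem_forms e4_mem_forms 2) (by norm_num)
  -- reduction modulo two
  let φ : PowerSeries ℤ →+* PowerSeries (ZMod 2) := PowerSeries.map (Int.castRingHom (ZMod 2))
  have hc1 : (c : ZMod 2) = 1 := by
    have : ∀ x : ZMod 2, x ≠ 0 → x = 1 := by decide
    exact this _ fun h => hg0 ((ZMod.intCast_zmod_eq_zero_iff_dvd c 2).mp h)
  have h2 : (2 : PowerSeries (ZMod 2)) = 0 := by
    rw [← map_ofNat (C (R := ZMod 2))]
    rw [show (2 : ZMod 2) = 0 from rfl, map_zero]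
  have hφG : φ G = φ A + φ A * φ A := by
    have hCc : PowerSeries.map (Int.castRingHom (ZMod 2)) (C c) = 1 := by
      rw [PowerSeries.map_C, eq_intCast, hc1, map_one]
    simp only [hG, φ, map_add, map_sub, map_mul, map_pow, map_neg, map_ofNat, hCc, one_pow]
    linear_combination
      (-14 * PowerSeries.map (Int.castRingHom (ZMod 2)) A
        - 338 * PowerSeries.map (Int.castRingHom (ZMod 2)) A ^ 2
        - 63 * PowerSeries.map (Int.castRingHom (ZMod 2)) K
        + 4 * PowerSeries.map (Int.castRingHom (ZMod 2)) H ^ 3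
        + 8 * PowerSeries.map (Int.castRingHom (ZMod 2)) H ^ 4
        - 45 * PowerSeries.map (Int.castRingHom (ZMod 2)) A *
          PowerSeries.map (Int.castRingHom (ZMod 2)) H
        - 180 * PowerSeries.map (Int.castRingHom (ZMod 2)) A *
          PowerSeries.map (Int.castRingHom (ZMod 2)) H ^ 2
        - 63 * (PowerSeries.map (Int.castRingHom (ZMod 2)) A +
          8 * PowerSeries.map (Int.castRingHom (ZMod 2)) K) *
          PowerSeries.map (Int.castRingHom (ZMod 2)) H) * h2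
  have hcG : ∀ n, coeff n (φ G) = ((ArithmeticFunction.sigma 3 n : ℕ) : ZMod 2) +
      if 2 ∣ n then ((ArithmeticFunction.sigma 3 (n / 2) : ℕ) : ZMod 2) else 0 := by
    intro n
    rw [hφG, map_add, coeff_sq_two]
    simp [φ, A, coeff_map]
  have hσp : ∀ j, ¬ p ∣ j → ((ArithmeticFunction.sigma 3 (j * p) : ℕ) : ZMod 2) = 0 := by
    intro j hj
    rw [ArithmeticFunction.isMultiplicative_sigma.map_mul_of_coprime
      ((hp.out.coprime_iff_not_dvd.mpr hj).symm), Nat.cast_mul]
    have : ArithmeticFunction.sigma 3 p = 1 + p ^ 3 := by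
      rw [← pow_one p, ArithmeticFunction.sigma_apply_prime_pow hp.out]
      simp [Finset.sum_range_succ, pow_one]
    rw [this]
    have hpodd : (p : ZMod 2) = 1 := by
      rw [← ZMod.natCast_mod, Nat.odd_iff.mp (hp.out.odd_of_ne_two hp2), Nat.cast_one]
    push_cast
    rw [hpodd, one_pow, show (1 : ZMod 2) + 1 = 0 from rfl, mul_zero]
  have hG0 : ∀ m < 1, coeff m (φ G) = 0 := by
    intro m hm
    obtain rfl : m = 0 := by omega
    rw [hcG]
    simp
  have hG1 : coeff 1 (φ G) = 1 := by rw [hcG]; simp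
  have hUlt : ∀ m < p, coeff m (φ (upSeries p G)) = 0 := by
    intro m hm
    have e : coeff m (φ (upSeries p G)) = coeff (m * p) (φ G) := by simp [φ, coeff_map]
    rw [e]
    rcases eq_or_ne m 0 with rfl | hm0
    · rw [zero_mul]; exact hG0 0 one_pos
    · have hpm : ¬ p ∣ m := fun h => hm0 (Nat.eq_zero_of_dvd_of_lt h hm)
      rw [hcG, hσp m hpm, zero_add]
      split_ifs with h2m
      · have h2m' : 2 ∣ m := by
          rcases Nat.prime_two.dvd_mul.mp h2m with h | h
          · exact h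
          · exact absurd ((Nat.prime_dvd_prime_iff_eq Nat.prime_two hp.out).mp h).symm hp2
        obtain ⟨j, rfl⟩ := h2m'
        rw [mul_assoc, Nat.mul_div_cancel_left _ two_pos]
        exact hσp j fun h => hpm (dvd_mul_of_dvd_right h 2)
      · rfl
  have hUp : coeff p (φ (upSeries p G)) = 1 := by
    have e : coeff p (φ (upSeries p G)) = coeff (p ^ 2) (φ G) := by simp [φ, coeff_map, sq]
    rw [e, hcG, sigma_three_prime_sq hp.out, if_neg, add_zero]
    · have hpodd : (p : ZMod 2) = 1 := by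
        rw [← ZMod.natCast_mod, Nat.odd_iff.mp (hp.out.odd_of_ne_two hp2), Nat.cast_one]
      push_cast
      rw [hpodd]
      rfl
    · intro h
      exact hp2 ((Nat.prime_dvd_prime_iff_eq Nat.prime_two hp.out).mp
        (Nat.prime_two.dvd_of_dvd_pow h)).symm
  obtain ⟨u, hu⟩ := PowerSeries.X_pow_dvd_iff.mpr hG0
  obtain ⟨v, hv⟩ := PowerSeries.X_pow_dvd_iff.mpr hUlt
  have hu0 : constantCoeff u = 1 := by
    rw [hu, show coeff 1 (X ^ 1 * u) = coeff (0 + 1) (X ^ 1 * u) from rfl, coeff_X_pow_mul] at hG1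
    simpa using hG1
  have hv0 : constantCoeff v = 1 := by
    have := hUp
    rw [hv, show coeff p (X ^ p * v) = coeff (0 + p) (X ^ p * v) by rw [zero_add],
      coeff_X_pow_mul] at this
    simpa using this
  have he4 : φ e4 = 1 := by
    simp only [φ, e4, map_add, map_one, map_mul, map_ofNat]
    linear_combination (120 * PowerSeries.map (Int.castRingHom (ZMod 2)) (sigmaSeries 3)) * h2
  set j := 3 * p ^ 2 + 3 with hj
  refine false_of_triangular (p := p) (k := 8 * (j : ℤ)) 2
    (fun i : Fin p × Fin (j - p + 1) =>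
      G ^ (i.1 : ℕ) * upSeries p G ^ (i.2 : ℕ) * e4 ^ (2 * (j - i.1 - i.2))) ?_
    (fun i => i.1 + p * i.2) ?_ ?_ ?_ ?_
  · intro i
    refine congr_mem_forms (mul_mem_forms (mul_mem_forms (pow_mem_forms hG8 _)
      (pow_mem_forms (upSeries_mem_forms hG8) _)) (pow_mem_forms e4_mem_forms _)) ?_
    have h1 := i.1.2
    have h2 := i.2.2
    have h3 : p ≤ p ^ 2 := Nat.le_self_pow two_ne_zero p
    zify [show (i.1 : ℕ) ≤ j by omega, show (i.2 : ℕ) ≤ j - i.1 by omega]
    ring
  · intro a b hab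
    simp only at hab
    have h1 := congrArg (· % p) hab
    simp only [Nat.add_mul_mod_self_left, Nat.mod_eq_of_lt a.1.2, Nat.mod_eq_of_lt b.1.2] at h1
    rw [h1] at hab
    have h2 := Nat.eq_of_mul_eq_mul_left hp.out.pos (Nat.add_left_cancel hab)
    exact Prod.ext (Fin.ext h1) (Fin.ext h2)
  rotate_left 2
  · rw [Fintype.card_prod, Fintype.card_fin, Fintype.card_fin]
    have hle : p ≤ j := by nlinarith
    obtain ⟨d, hd⟩ : ∃ d, j = p + d := ⟨j - p, by omega⟩
    rw [show ((8 : ℤ) * (j : ℤ) * ((p + 1 : ℕ) : ℤ)).toNat = 8 * j * (p + 1) by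
      rw [← Int.toNat_natCast (8 * j * (p + 1))]; push_cast; ring_nf]
    rw [hd, Nat.add_sub_cancel_left]
    have hx := Nat.div_mul_le_self (8 * (p + d) * (p + 1)) 12
    nlinarith
  all_goals intro i
  all_goals
    have e : φ (G ^ (i.1 : ℕ) * upSeries p G ^ (i.2 : ℕ) * e4 ^ (2 * (j - i.1 - i.2))) =
        X ^ ((i.1 : ℕ) + p * i.2) * (u ^ (i.1 : ℕ) * v ^ (i.2 : ℕ)) := by
      rw [map_mul, map_mul, map_pow, map_pow, map_pow, he4, one_pow, mul_one, hu, hv]
      ring
  · have hcc : constantCoeff (u ^ (i.1 : ℕ) * v ^ (i.2 : ℕ)) = 1 := by simp [hu0, hv0]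
    have := congrArg (coeff (0 + ((i.1 : ℕ) + p * i.2))) e
    rw [coeff_X_pow_mul, zero_add, coeff_zero_eq_constantCoeff_apply, hcc] at this
    simp only [φ, coeff_map, eq_intCast] at this
    rw [this]
    exact one_ne_zero
  · intro n hn
    have := congrArg (coeff n) e
    rw [PowerSeries.coeff_X_pow_mul', if_neg (by omega)] at this
    simp only [φ, coeff_map, eq_intCast] at this
    exact this

end

end FLTAgent.Eisenstein
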