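import Fermat.Agent.CuspForms.IntegralStructure
import Fermat.Agent.CuspForms.HeckeDual
import Fermat.Agent.Eisenstein.Bound

/-!
# Forms dual to characters of the Hecke algebra of level `p`
-/

set_option autoImplicit false
set_option linter.style.haveILetI false

open CongruenceSubgroup ModularFormClass UpperHalfPlane
open scoped MatrixGroups

namespace FLTAgent.Eisenstein

noncomputable section

open FLTAgent.CuspForms

/-- Every additive function on the Hecke algebra comes from a cusp form. -/
theorem exists_form_of_addHom {N : ℕ} [NeZero N] (h : CuspForm.HasIntegralStructure N 2)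
    (ψ : CuspForm.heckeAlgebra N 2 (∅ : Set ℕ) →+ ℤ) :
    ∃ g : CuspForm (Gamma0 N) 2, ∀ t : CuspForm.heckeAlgebra N 2 (∅ : Set ℕ),
      qCoeff ⇑((t : Module.End ℂ (CuspForm (Gamma0 N) 2)) g) 1 = ((ψ t : ℤ) : ℂ) := by
  haveI : Module.Finite ℤ (CuspForm.heckeAlgebra N 2 (∅ : Set ℕ)) :=
    moduleFinite_heckeAlgebra_of_structure (by norm_num) h ∅
  let ι := Module.Free.ChooseBasisIndex ℤ (CuspForm.heckeAlgebra N 2 (∅ : Set ℕ))
  let b : Module.Basis ι ℤ (CuspForm.heckeAlgebra N 2 (∅ : Set ℕ)) :=
    Module.Free.chooseBasis ℤ _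
  let Φ : CuspForm (Gamma0 N) 2 →ₗ[ℂ] (ι → ℂ) :=
    LinearMap.pi fun i => (qcLin N 2 1).comp (b i : Module.End ℂ (CuspForm (Gamma0 N) 2))
  have hsurj : LinearMap.range Φ = ⊤ := by
    by_contra hne
    obtain ⟨ψ, hψ0, hψ⟩ := Submodule.exists_le_ker_of_lt_top _ (lt_top_iff_ne_top.mpr hne)
    apply hψ0
    set c : ι → ℂ := fun i => ψ (Pi.single i 1) with hc
    have hψc : ∀ x : ι → ℂ, ψ x = ∑ i, x i * c i := by
      intro x
      conv_lhs => rw [← Finset.univ_sum_single x]
      rw [map_sum]
      refine Finset.sum_congr rfl fun i _ => ?_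
      rw [show (Pi.single i (x i) : ι → ℂ) = x i • Pi.single i 1 by
        ext j; simp [Pi.single_apply], map_smul, hc]
      rfl
    -- the integral matrix
    have hint : ∀ i, ∀ f : CuspForm.intLattice N 2, ∃ m : ℤ,
        qCoeff ⇑((b i : Module.End ℂ (CuspForm (Gamma0 N) 2)) f) 1 = (m : ℂ) := fun i f =>
      (mem_intLattice_iff _).mp
        (CuspForm.mem_intLattice_of_mem_heckeAlgebra (by norm_num) (b i).2 f.2) 1
    choose m hm using hint
    have hind : LinearIndependent ℤ m := by
      rw [Fintype.linearIndependent_iff]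
      intro a ha
      have ht : (((∑ i, a i • b i) : CuspForm.heckeAlgebra N 2 (∅ : Set ℕ)) :
          Module.End ℂ (CuspForm (Gamma0 N) 2)) = 0 := by
        apply end_eq_zero_of_intLattice h
        intro f hf
        apply eq_zero_of_qCoeff_one
        intro s
        have hsf : (s : Module.End ℂ (CuspForm (Gamma0 N) 2)) f ∈ CuspForm.intLattice N 2 :=
          CuspForm.mem_intLattice_of_mem_heckeAlgebra (by norm_num) s.2 hf
        rw [← Module.End.mul_apply, ← MulMemClass.coe_mul, mul_comm, MulMemClass.coe_mul,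
          Module.End.mul_apply]
        rw [← qcLin_apply]
        simp only [AddSubmonoidClass.coe_finsetSum, SetLike.val_smul, LinearMap.sum_apply,
          LinearMap.smul_apply, map_sum, map_zsmul, qcLin_apply]
        have := congrArg (fun z : ℤ => (z : ℂ)) (congrFun ha ⟨_, hsf⟩)
        rw [show (Finset.univ.sum fun i => a i • m i) ⟨_, hsf⟩ = ∑ i, a i * m i ⟨_, hsf⟩ by
          simp] at this
        push_cast at this
        simp only [Pi.zero_apply, Int.cast_zero] at this
        simp only [zsmul_eq_mul]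
        convert this using 2 with i
        exact congrArg _ (hm i ⟨_, hsf⟩)
      have ht' : (∑ i, a i • b i) = 0 := Subtype.ext ht
      exact Fintype.linearIndependent_iff.mp b.linearIndependent a ht'
    have hker : ∀ f : CuspForm.intLattice N 2, ∑ i, (m i f : ℂ) * c i = 0 := by
      intro f
      have := hψ ⟨(f : CuspForm (Gamma0 N) 2), rfl⟩
      rw [LinearMap.mem_ker, hψc] at this
      simpa [Φ, hm] using this
    have hc0 : ∀ i, c i = 0 := by
      intro i
      rw [← Module.forall_dual_apply_eq_zero_iff ℚ]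
      intro φ
      have hq : LinearIndependent ℚ fun i (f : CuspForm.intLattice N 2) => (m i f : ℚ) := by
        rw [← LinearIndependent.iff_fractionRing ℤ ℚ]
        rw [Fintype.linearIndependent_iff] at hind ⊢
        intro a ha
        apply hind a
        funext f
        have := congrFun ha f
        simp [Finset.sum_apply] at this ⊢
        exact_mod_cast this
      refine Fintype.linearIndependent_iff.mp hq (fun i => φ (c i)) ?_ i
      funext f
      have := congrArg φ (hker f)
      rw [map_sum, map_zero] at this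
      simp only [Finset.sum_apply, Pi.smul_apply, smul_eq_mul, Pi.zero_apply]
      rw [← this]
      refine Finset.sum_congr rfl fun i _ => ?_
      rw [show ((m i f : ℂ) * c i) = (m i f : ℚ) • c i by rw [Rat.smul_def]; norm_cast,
        map_smul, smul_eq_mul, mul_comm]
    ext x
    simp [hψc, hc0]
  obtain ⟨g, hg⟩ := LinearMap.range_eq_top.mp hsurj (fun i => ((ψ (b i) : ℤ) : ℂ))
  have hpair : ∀ t : CuspForm.heckeAlgebra N 2 (∅ : Set ℕ),
      qCoeff ⇑((t : Module.End ℂ (CuspForm (Gamma0 N) 2)) g) 1 = ((ψ t : ℤ) : ℂ) := by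
    intro t
    rw [← b.sum_repr t]
    rw [← qcLin_apply]
    simp only [AddSubmonoidClass.coe_finsetSum, SetLike.val_smul, LinearMap.sum_apply,
      LinearMap.smul_apply, map_sum, map_zsmul, qcLin_apply]
    rw [Int.cast_sum]
    refine Finset.sum_congr rfl fun i _ => ?_
    have := congrFun hg i
    simp only [Φ, LinearMap.pi_apply, LinearMap.comp_apply, qcLin_apply] at this
    rw [this, smul_eq_mul, zsmul_eq_mul, Int.cast_mul]
  exact ⟨g, hpair⟩

variable {p : ℕ} [hp : Fact p.Prime]

/-- The value of the Eisenstein system at a prime. -/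
theorem heckeWeight_eq {q : ℕ} (hq : q.Prime) :
    heckeWeight p q = if q = p then 0 else q := by
  simp only [heckeWeight, Nat.prime_dvd_prime_iff_eq hq hp.out]

theorem sigmaPrime_recursion {q r : ℕ} (hq : q.Prime) (hr : r ≠ 0) :
    (1 + heckeWeight p q) * sigmaPrime p r =
      sigmaPrime p (q * r) + heckeWeight p q * (if q ∣ r then sigmaPrime p (r / q) else 0) := by
  classical
  set h : ℕ → ℕ := fun d => if p ∣ d then 0 else d
  have hσ : ∀ m, sigmaPrime p m = ∑ d ∈ m.divisors, h d := by
    intro m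
    rw [sigmaPrime, Finset.sum_filter]
    refine Finset.sum_congr rfl fun d _ => ?_
    by_cases hd : p ∣ d <;> simp [h, hd]
  have hmul : ∀ d, h (q * d) = heckeWeight p q * h d := by
    intro d
    rw [heckeWeight_eq hq]
    by_cases hqp : q = p
    · simp [h, hqp]
    · have : p ∣ q * d ↔ p ∣ d := by
        rw [hp.out.dvd_mul]
        exact or_iff_right fun h' => hqp ((Nat.prime_dvd_prime_iff_eq hp.out hq).mp h').symm
      simp only [h, this, if_neg hqp]
      split_ifs <;> simp
  have hinj : Function.Injective fun d => q * d := fun a b hab =>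
    mul_left_cancel₀ hq.ne_zero hab
  have hunion : r.divisors ∪ r.divisors.image (fun d => q * d) = (q * r).divisors := by
    ext d
    simp only [Finset.mem_union, Finset.mem_image, Nat.mem_divisors]
    constructor
    · rintro (⟨hd, -⟩ | ⟨e, ⟨he, -⟩, rfl⟩)
      · exact ⟨hd.trans (dvd_mul_left r q), mul_ne_zero hq.ne_zero hr⟩
      · exact ⟨Nat.mul_dvd_mul_left q he, mul_ne_zero hq.ne_zero hr⟩
    · rintro ⟨hd, -⟩
      by_cases hqd : q ∣ d
      · obtain ⟨e, rfl⟩ := hqd
        exact Or.inr ⟨e, ⟨Nat.dvd_of_mul_dvd_mul_left hq.pos hd, hr⟩, rfl⟩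
      · exact Or.inl ⟨(((hq.coprime_iff_not_dvd.mpr hqd).symm).dvd_of_dvd_mul_left hd), hr⟩
  have hinter : r.divisors ∩ r.divisors.image (fun d => q * d) =
      if q ∣ r then (r / q).divisors.image (fun d => q * d) else ∅ := by
    ext d
    simp only [Finset.mem_inter, Finset.mem_image, Nat.mem_divisors]
    split_ifs with hqr
    · obtain ⟨s, rfl⟩ := hqr
      rw [Nat.mul_div_cancel_left _ hq.pos]
      simp only [Finset.mem_image, Nat.mem_divisors]
      constructor
      · rintro ⟨⟨hd, -⟩, e, -, rfl⟩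
        exact ⟨e, ⟨Nat.dvd_of_mul_dvd_mul_left hq.pos hd, (Nat.mul_ne_zero_iff.mp hr).2⟩, rfl⟩
      · rintro ⟨e, ⟨he, -⟩, rfl⟩
        exact ⟨⟨Nat.mul_dvd_mul_left q he, hr⟩, e, ⟨he.trans (dvd_mul_left s q), hr⟩, rfl⟩
    · simp only [Finset.notMem_empty, iff_false]
      rintro ⟨⟨hd, -⟩, e, -, rfl⟩
      exact hqr ((dvd_mul_right q e).trans hd)
  have key := Finset.sum_union_inter (s₁ := r.divisors) (s₂ := r.divisors.image (fun d => q * d))
    (f := h)
  rw [hunion, hinter, Finset.sum_image hinj.injOn] at key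
  simp only [hmul, ← Finset.mul_sum, ← hσ] at key
  split_ifs at key ⊢
  · rw [Finset.sum_image hinj.injOn] at key
    simp only [hmul, ← Finset.mul_sum, ← hσ] at key
    rw [add_mul, one_mul]
    exact key.symm
  · rw [Finset.sum_empty] at key
    rw [mul_zero, add_mul, one_mul]
    exact key.symm

theorem sigmaPrime_one : sigmaPrime p 1 = 1 := by
  rw [sigmaPrime, Finset.sum_filter, Nat.divisors_one, Finset.sum_singleton, if_pos]
  exact fun h => hp.out.one_lt.ne' (Nat.dvd_one.mp h)

/-- An Eisenstein character modulo `M` yields a form congruent to the Eisenstein series. -/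
theorem exists_series_congr {M : ℕ} [NeZero M]
    (χ : CuspForm.heckeAlgebra p 2 (∅ : Set ℕ) →+* ZMod M)
    (hχ : ∀ q (hq : q.Prime),
      χ (CuspForms.heckeGen p q hq) = ((1 + heckeWeight p q : ℕ) : ZMod M)) :
    ∃ a ∈ forms p 2, PowerSeries.coeff 0 a = 0 ∧
      ∀ n, n ≠ 0 → ((PowerSeries.coeff n a : ℤ) : ZMod M) = (sigmaPrime p n : ZMod M) := by
  classical
  have hint := hasIntegralStructure p 2
  haveI : Module.Finite ℤ (CuspForm.heckeAlgebra p 2 (∅ : Set ℕ)) :=
    moduleFinite_heckeAlgebra_of_structure (by norm_num) hint ∅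
  let b := Module.Free.chooseBasis ℤ (CuspForm.heckeAlgebra p 2 (∅ : Set ℕ))
  let ψ := b.constr ℤ fun i => ((χ (b i)).val : ℤ)
  have hψ : ∀ t, ((ψ t : ℤ) : ZMod M) = χ t := by
    intro t
    have : (Int.castAddHom (ZMod M)).toIntLinearMap ∘ₗ ψ = χ.toAddMonoidHom.toIntLinearMap := by
      refine b.ext fun i => ?_
      simp [ψ]
    exact LinearMap.congr_fun this t
  obtain ⟨g, hg⟩ := exists_form_of_addHom hint ψ.toAddMonoidHom
  have key : ∀ n, n ≠ 0 → ∀ t : CuspForm.heckeAlgebra p 2 (∅ : Set ℕ), ∃ z : ℤ,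
      qCoeff ⇑((t : Module.End ℂ (CuspForm (Gamma0 p) 2)) g) n = (z : ℂ) ∧
        (z : ZMod M) = χ t * (sigmaPrime p n : ZMod M) := by
    intro n
    induction n using Nat.strong_induction_on with
    | _ n ih =>
      intro hn t
      rcases Nat.lt_or_ge n 2 with h2 | h2
      · obtain rfl : n = 1 := by omega
        exact ⟨ψ t, hg t, by rw [hψ, sigmaPrime_one, Nat.cast_one, mul_one]⟩
      · obtain ⟨r, hr⟩ := Nat.minFac_dvd n
        have hq := Nat.minFac_prime (n := n) (by omega)
        generalize n.minFac = q at hr hq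
        subst hr
        have hr0 : r ≠ 0 := (Nat.mul_ne_zero_iff.mp hn).2
        have hrn : r < q * r := by nlinarith [hq.two_le, Nat.pos_of_ne_zero hr0]
        obtain ⟨z1, hz1, hz1'⟩ := ih r hrn hr0 (CuspForms.heckeGen p q hq * t)
        have e := qCoeff_heckeGen q hq ((t : Module.End ℂ (CuspForm (Gamma0 p) 2)) g) r
        rw [MulMemClass.coe_mul, Module.End.mul_apply, e] at hz1
        have hrec := congrArg (Nat.cast (R := ZMod M)) (sigmaPrime_recursion (p := p) hq hr0)
        rw [map_mul, hχ q hq] at hz1'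
        by_cases hd : q ∣ r
        · rw [if_pos hd] at hz1 hrec
          obtain ⟨s, rfl⟩ := hd
          rw [Nat.mul_div_cancel_left _ hq.pos] at hz1 hrec
          have hs0 : s ≠ 0 := (Nat.mul_ne_zero_iff.mp hr0).2
          obtain ⟨z2, hz2, hz2'⟩ := ih s (lt_of_le_of_lt (Nat.le_mul_of_pos_left s hq.pos) hrn) hs0 t
          refine ⟨z1 - (heckeWeight p q : ℤ) * z2, ?_, ?_⟩
          · rw [hz2] at hz1
            push_cast
            linear_combination hz1
          · push_cast at hrec hz1' ⊢
            rw [hz1', hz2']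
            linear_combination (χ t) * hrec
        · rw [if_neg hd] at hz1 hrec
          refine ⟨z1, by simpa using hz1, ?_⟩
          push_cast at hrec hz1' ⊢
          rw [hz1']
          linear_combination (χ t) * hrec
  have key1 : ∀ n, n ≠ 0 → ∃ z : ℤ, qCoeff ⇑g n = (z : ℂ) ∧
      (z : ZMod M) = (sigmaPrime p n : ZMod M) := by
    intro n hn
    obtain ⟨z, hz, hz'⟩ := key n hn 1
    exact ⟨z, by simpa using hz, by simpa using hz'⟩
  choose z hz hz' using key1
  refine ⟨PowerSeries.mk fun n => if h : n = 0 then 0 else z n h,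
    ⟨g, (isCuspidal_of_cuspForm g).toIsForm, ?_⟩, by simp, fun n hn => by simp [hn, hz' n hn]⟩
  ext n
  rw [coeff_intIncl, PowerSeries.coeff_mk]
  rcases eq_or_ne n 0 with rfl | hn
  · simpa [qCoeff] using qCoeff_zero_index g
  · simpa [hn, qCoeff] using hz n hn

end

end FLTAgent.Eisenstein
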