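import Fermat.Agent.PeriodHecke.Action
import Fermat.Agent.Eisenstein.Dual
import Fermat.Prelude.Def_ModularCurve_ModularUnit

/-!
# The Eisenstein character of the Hecke algebra modulo the Eisenstein numerator

The twelfth power of the upper left entry modulo `p` is a homomorphism on `Γ₀(p)` killing
parabolic and elliptic elements on which the Hecke operators act by the Eisenstein system.
-/

set_option autoImplicit false
set_option linter.style.haveILetI false

open CongruenceSubgroup
open scoped MatrixGroups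

namespace FLTAgent.Eisenstein

noncomputable section

open FLTAgent.PeriodHecke

variable (p : ℕ) [hp : Fact p.Prime]

/-- The upper left entry modulo `p`. -/
def entryHom : Gamma0 p →* ZMod p where
  toFun γ := ((mat γ 0 0 : ℤ) : ZMod p)
  map_one' := by simp [mat_one]
  map_mul' γ δ := by
    have h : ((mat δ 1 0 : ℤ) : ZMod p) = 0 :=
      (ZMod.intCast_zmod_eq_zero_iff_dvd _ _).mpr (dvd_lower_left p δ)
    rw [mat_mul, Matrix.mul_apply, Fin.sum_univ_two]
    push_cast
    rw [h, mul_zero, add_zero]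

/-- The twelfth power of the upper left entry, as a unit. -/
def twelfthHom : Gamma0 p →* (ZMod p)ˣ := (powMonoidHom 12).comp (entryHom p).toHomUnits

theorem coe_twelfthHom (γ : Gamma0 p) : ((twelfthHom p γ : (ZMod p)ˣ) : ZMod p) = entryHom p γ ^ 12 := by
  simp [twelfthHom]

theorem twelfthHom_parabolic (γ : Gamma0 p) (h : (mat γ).trace ^ 2 ≤ 4) : twelfthHom p γ = 1 := by
  apply Units.ext
  rw [coe_twelfthHom, Units.val_one]
  rcases lt_or_eq_of_le h with hlt | heq
  · rw [← map_pow]
    have : γ ^ 12 = 1 := mat_injective (by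
      rw [show mat (γ ^ 12) = mat γ ^ 12 by simp [mat], pow_twelve_eq_one _ (mat_det γ) hlt, mat_one])
    rw [this, map_one]
  · have hdet := congrArg (fun z : ℤ => (z : ZMod p)) (mat_det γ)
    rw [Matrix.det_fin_two] at hdet
    have hc : ((mat γ 1 0 : ℤ) : ZMod p) = 0 :=
      (ZMod.intCast_zmod_eq_zero_iff_dvd _ _).mpr (dvd_lower_left p γ)
    push_cast at hdet
    rw [hc, mul_zero, sub_zero] at hdet
    rw [Matrix.trace_fin_two] at heq
    have ht : mat γ 0 0 + mat γ 1 1 = 2 ∨ mat γ 0 0 + mat γ 1 1 = -2 :=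
      sq_eq_sq_iff_eq_or_eq_neg.mp (heq.trans (by norm_num))
    show ((mat γ 0 0 : ℤ) : ZMod p) ^ 12 = 1
    rcases ht with ht | ht
    · have hd : ((mat γ 1 1 : ℤ) : ZMod p) = 2 - (mat γ 0 0 : ℤ) := by
        rw [show mat γ 1 1 = 2 - mat γ 0 0 by omega]; push_cast; ring
      rw [hd] at hdet
      have : ((mat γ 0 0 : ℤ) : ZMod p) = 1 := by
        have hsq : (((mat γ 0 0 : ℤ) : ZMod p) - 1) ^ 2 = 0 := by linear_combination -hdet
        exact sub_eq_zero.mp (pow_eq_zero_iff two_ne_zero |>.mp hsq)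
      rw [this, one_pow]
    · have hd : ((mat γ 1 1 : ℤ) : ZMod p) = -2 - (mat γ 0 0 : ℤ) := by
        rw [show mat γ 1 1 = -2 - mat γ 0 0 by omega]; push_cast; ring
      rw [hd] at hdet
      have : ((mat γ 0 0 : ℤ) : ZMod p) = -1 := by
        have hsq : (((mat γ 0 0 : ℤ) : ZMod p) + 1) ^ 2 = 0 := by linear_combination -hdet
        exact eq_neg_of_add_eq_zero_left (pow_eq_zero_iff two_ne_zero |>.mp hsq)
      rw [this]
      ring

/-- The test homomorphism. -/
def testHom : Hpar (Gamma0 p) (Additive (ZMod p)ˣ) :=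
  ⟨(twelfthHom p).toAdditive, fun γ hγ => by
    show Additive.ofMul (twelfthHom p γ) = 0
    rw [twelfthHom_parabolic p γ hγ]
    rfl⟩

theorem testHom_apply (γ : Gamma0 p) :
    (testHom p : Additive (Gamma0 p) →+ Additive (ZMod p)ˣ) (Additive.ofMul γ) =
      Additive.ofMul (twelfthHom p γ) := rfl

theorem entryHom_surjective (a : (ZMod p)ˣ) : ∃ γ : Gamma0 p, entryHom p γ = (a : ZMod p) := by
  obtain ⟨a', ha'⟩ := ZMod.intCast_surjective (a : ZMod p)
  obtain ⟨d', hd'⟩ := ZMod.intCast_surjective ((a⁻¹ : (ZMod p)ˣ) : ZMod p)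
  obtain ⟨b, hb⟩ : (p : ℤ) ∣ a' * d' - 1 := (ZMod.intCast_zmod_eq_zero_iff_dvd _ _).mp (by
    push_cast
    rw [ha', hd', ← Units.val_mul, mul_inv_cancel, Units.val_one, sub_self])
  refine ⟨gamma0Mk p a' b p d' (by linear_combination hb) dvd_rfl, ?_⟩
  exact ha'

theorem exists_generator : ∃ γ : Gamma0 p,
    addOrderOf ((testHom p : Additive (Gamma0 p) →+ Additive (ZMod p)ˣ) (Additive.ofMul γ)) =
      ModularCurve.eisensteinNumerator p := by
  obtain ⟨w, hw⟩ := IsCyclic.exists_ofOrder_eq_natCard (α := (ZMod p)ˣ)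
  obtain ⟨γ, hγ⟩ := entryHom_surjective p w
  refine ⟨γ, ?_⟩
  have h1 : twelfthHom p γ = w ^ 12 := Units.ext (by rw [coe_twelfthHom, hγ, Units.val_pow_eq_pow_val])
  rw [testHom_apply, h1, addOrderOf_ofMul_eq_orderOf, orderOf_pow, hw, Nat.card_eq_fintype_card,
    ZMod.card_units]
  rfl

omit hp in
theorem card_heckeIdx (q : ℕ) [hq : Fact q.Prime] :
    Fintype.card (HeckeIdx p q) = if q ∣ p then q else q + 1 := by
  classical
  split_ifs with h
  · refine Eq.trans ?_ (ZMod.card q)
    exact (Fintype.card_congr (Equiv.ofBijective (idxSome p q) ⟨fun a b hab => by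
      simpa [idxSome] using congrArg Subtype.val hab, fun i => by
      rcases HeckeIdx.cases p q i with ⟨h', rfl⟩ | ⟨j, rfl⟩
      · exact absurd h (h' rfl)
      · exact ⟨j, rfl⟩⟩)).symm
  · rw [show q + 1 = Fintype.card (Option (ZMod q)) by rw [Fintype.card_option, ZMod.card]]
    exact Fintype.card_congr (Equiv.subtypeUnivEquiv fun x _ => h)

theorem heckePar_testHom (q : ℕ) [hq : Fact q.Prime] :
    (heckeFam p q).heckePar (testHom p) = (1 + CuspForms.heckeWeight p q) • testHom p := by
  refine Subtype.ext (AddMonoidHom.ext fun x => ?_)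
  obtain ⟨γ, rfl⟩ := Additive.ofMul.surjective x
  have hne : ∀ i, ((heckeRep p q i 0 0 : ℤ) : ZMod p) ≠ 0 := by
    intro i
    rcases HeckeIdx.cases p q i with ⟨h, rfl⟩ | ⟨j, rfl⟩
    · have hqp : ¬ q ∣ p := h rfl
      simp only [heckeRep, Matrix.of_apply, Matrix.cons_val', Matrix.cons_val_zero,
        Matrix.empty_val', Matrix.cons_val_fin_one]
      rw [Int.cast_natCast, Ne, ZMod.natCast_eq_zero_iff]
      exact fun h' => hqp (by rw [(Nat.prime_dvd_prime_iff_eq hp.out hq.out).mp h'])
    · rw [heckeRep_idxSome]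
      simp
  have hlow : ∀ i, heckeRep p q i 1 0 = 0 := by
    intro i
    rcases HeckeIdx.cases p q i with ⟨h, rfl⟩ | ⟨j, rfl⟩ <;> simp [heckeRep, idxSome]
  let Aα : HeckeIdx p q → Additive (ZMod p)ˣ := fun i => Additive.ofMul ((Units.mk0 _ (hne i)) ^ 12)
  have hrel : ∀ i, (testHom p : Additive (Gamma0 p) →+ Additive (ZMod p)ˣ)
      (Additive.ofMul ((heckeFam p q).coc γ i)) + Aα ((heckeFam p q).next γ i) =
      (testHom p : Additive (Gamma0 p) →+ Additive (ZMod p)ˣ) (Additive.ofMul γ) + Aα i := by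
    intro i
    have h := congrArg (fun M : Matrix (Fin 2) (Fin 2) ℤ => ((M 0 0 : ℤ) : ZMod p))
      ((heckeFam p q).rel γ i)
    simp only [heckeFam_α, Matrix.mul_apply, Fin.sum_univ_two] at h
    push_cast at h
    rw [(ZMod.intCast_zmod_eq_zero_iff_dvd _ _).mpr (dvd_lower_left p γ), hlow, Int.cast_zero,
      mul_zero, mul_zero, add_zero, add_zero] at h
    simp only [Aα, testHom_apply, ← ofMul_mul]
    congr 1
    apply Units.ext
    simp only [Units.val_mul, coe_twelfthHom, Units.val_pow_eq_pow_val, Units.val_mk0, ← mul_pow]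
    rw [mul_comm (entryHom p γ)]
    exact congrArg (· ^ 12) h.symm
  have hsum := Finset.sum_congr rfl fun i (_ : i ∈ (Finset.univ : Finset (HeckeIdx p q))) => hrel i
  rw [Finset.sum_add_distrib, Finset.sum_add_distrib,
    show ∑ i, Aα ((heckeFam p q).next γ i) = ∑ i, Aα i from Equiv.sum_comp ((heckeFam p q).perm γ) Aα,
    add_left_inj, Finset.sum_const, Finset.card_univ, card_heckeIdx] at hsum
  rw [HeckeFamily.coe_heckePar, HeckeFamily.hecke_apply, hsum]
  show _ = (1 + CuspForms.heckeWeight p q) •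
    (testHom p : Additive (Gamma0 p) →+ Additive (ZMod p)ˣ) (Additive.ofMul γ)
  rw [CuspForms.heckeWeight]
  split_ifs with h
  · obtain rfl := (Nat.prime_dvd_prime_iff_eq hq.out hp.out).mp h
    rw [add_zero, one_nsmul, testHom_apply, ← ofMul_pow]
    congr 1
    apply Units.ext
    rw [Units.val_pow_eq_pow_val, ZMod.pow_card]
  · rw [add_comm 1 q]

/-- Existence of the scalar by which an element acts. -/
theorem exists_scalar (t : CuspForm.heckeAlgebra p 2 (∅ : Set ℕ)) :
    ∃ z : ℤ, actA p (Additive (ZMod p)ˣ) t (testHom p) = z • testHom p := by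
  obtain ⟨t, ht⟩ := t
  induction ht using Algebra.adjoin_induction with
  | mem x hx =>
    obtain ⟨q, hq, rfl⟩ := mem_generators p hx
    refine ⟨((1 + CuspForms.heckeWeight p q : ℕ) : ℤ), ?_⟩
    rw [natCast_zsmul, ← heckePar_testHom p q, ← actA_heckeGen p q]
    congr 1
    exact congrArg _ (Subtype.ext (coe_heckeGen p q).symm)
  | algebraMap r =>
    refine ⟨r, ?_⟩
    show actA p _ (algebraMap ℤ (CuspForm.heckeAlgebra p 2 (∅ : Set ℕ)) r) _ = _
    rw [eq_intCast, map_intCast]
    rfl
  | add x y hx hy ihx ihy =>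
    obtain ⟨a, ha⟩ := ihx
    obtain ⟨b, hb⟩ := ihy
    refine ⟨a + b, ?_⟩
    rw [show (⟨x + y, _⟩ : CuspForm.heckeAlgebra p 2 (∅ : Set ℕ)) = ⟨x, hx⟩ + ⟨y, hy⟩ from rfl,
      map_add, add_smul, ← ha, ← hb]
    rfl
  | mul x y hx hy ihx ihy =>
    obtain ⟨a, ha⟩ := ihx
    obtain ⟨b, hb⟩ := ihy
    refine ⟨b * a, ?_⟩
    rw [show (⟨x * y, _⟩ : CuspForm.heckeAlgebra p 2 (∅ : Set ℕ)) = ⟨x, hx⟩ * ⟨y, hy⟩ from rfl,
      map_mul]
    show actA p _ ⟨x, hx⟩ (actA p _ ⟨y, hy⟩ (testHom p)) = _
    rw [hb, map_zsmul, ha, smul_smul]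

theorem scalar_congr {z z' : ℤ} (h : z • testHom p = z' • testHom p) :
    (z : ZMod (ModularCurve.eisensteinNumerator p)) = z' := by
  obtain ⟨γ, hγ⟩ := exists_generator p
  have h' := congrArg (fun φ : Hpar (Gamma0 p) (Additive (ZMod p)ˣ) =>
    (φ : Additive (Gamma0 p) →+ Additive (ZMod p)ˣ) (Additive.ofMul γ)) h
  change z • (testHom p : Additive (Gamma0 p) →+ Additive (ZMod p)ˣ) (Additive.ofMul γ) =
    z' • (testHom p : Additive (Gamma0 p) →+ Additive (ZMod p)ˣ) (Additive.ofMul γ) at h'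
  rw [zsmul_eq_zsmul_iff_modEq, hγ] at h'
  exact (ZMod.intCast_eq_intCast_iff _ _ _).mpr h'

/-- The scalar of an element, modulo the Eisenstein numerator. -/
def scalar (t : CuspForm.heckeAlgebra p 2 (∅ : Set ℕ)) :
    ZMod (ModularCurve.eisensteinNumerator p) := ((exists_scalar p t).choose : ℤ)

theorem scalar_eq (t : CuspForm.heckeAlgebra p 2 (∅ : Set ℕ)) {z : ℤ}
    (h : actA p (Additive (ZMod p)ˣ) t (testHom p) = z • testHom p) :
    scalar p t = (z : ZMod (ModularCurve.eisensteinNumerator p)) :=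
  scalar_congr p ((exists_scalar p t).choose_spec.symm.trans h)

/-- The Eisenstein character. -/
def eisChar : CuspForm.heckeAlgebra p 2 (∅ : Set ℕ) →+* ZMod (ModularCurve.eisensteinNumerator p) where
  toFun := scalar p
  map_one' := by
    rw [scalar_eq p 1 (z := 1) (by rw [map_one, one_smul]; rfl), Int.cast_one]
  map_zero' := by
    rw [scalar_eq p 0 (z := 0) (by rw [map_zero, zero_smul]; rfl), Int.cast_zero]
  map_add' s t := by
    rw [scalar_eq p (s + t) (z := (exists_scalar p s).choose + (exists_scalar p t).choose) (by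
      have hs := (exists_scalar p s).choose_spec
      have ht := (exists_scalar p t).choose_spec
      generalize (exists_scalar p s).choose = a at hs ⊢
      generalize (exists_scalar p t).choose = b at ht ⊢
      rw [map_add, add_smul, ← hs, ← ht]
      rfl), Int.cast_add]
    rfl
  map_mul' s t := by
    rw [scalar_eq p (s * t) (z := (exists_scalar p s).choose * (exists_scalar p t).choose) (by
      have hs := (exists_scalar p s).choose_spec
      have ht := (exists_scalar p t).choose_spec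
      generalize (exists_scalar p s).choose = a at hs ⊢
      generalize (exists_scalar p t).choose = b at ht ⊢
      rw [map_mul]
      show actA p _ s (actA p _ t (testHom p)) = _
      rw [ht, map_zsmul, hs, smul_smul, mul_comm]), Int.cast_mul]
    rfl

theorem eisChar_heckeGen (q : ℕ) (hq : q.Prime) :
    eisChar p (CuspForms.heckeGen p q hq) =
      ((1 + CuspForms.heckeWeight p q : ℕ) : ZMod (ModularCurve.eisensteinNumerator p)) := by
  haveI := Fact.mk hq
  rw [← Int.cast_natCast]
  refine scalar_eq p _ ?_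
  rw [natCast_zsmul, ← heckePar_testHom p q]
  exact actA_heckeGen p q _

end

end FLTAgent.Eisenstein
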