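import Fermat.Agent.Eisenstein.Upper
import Fermat.Agent.Eisenstein.Lower
import Fermat.Prelude.Def_CuspForm_HeckeLocal
import Fermat.Prelude.Def_CuspForm_HeckeEvalForms

/-!
# The Eisenstein quotient of the Hecke algebra of prime level
-/

set_option autoImplicit false
set_option linter.style.haveILetI false

open CuspForm ModularCurve

namespace FLTAgent.Eisenstein

noncomputable section

variable (p : ℕ) [hp : Fact p.Prime]

theorem heckeFormsGen_eq (q : Nat.Primes) :
    heckeFormsGen p 2 q = CuspForms.heckeGen p q q.2 := rfl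

omit hp in
theorem cast_eisensteinSystem (q : Nat.Primes) {R : Type*} [Ring R] :
    ((eisensteinSystem p q : ℤ) : R) = ((1 + CuspForms.heckeWeight p q : ℕ) : R) := by
  unfold CuspForms.heckeWeight eisensteinSystem
  split_ifs <;> push_cast <;> simp

theorem heckeEvalForms_surjective : Function.Surjective (heckeEvalForms p 2) := by
  rintro ⟨t, ht⟩
  induction ht using Algebra.adjoin_induction with
  | mem x hx =>
    rcases hx with ⟨l, hl, hlN, -, rfl⟩ | ⟨q, hqN, hq, -, rfl⟩
    · exact ⟨heckeGen (⟨l, hl⟩ : Nat.Primes),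
        heckeEvalForms_heckeGen_of_not_dvd (ℓ := (⟨l, hl⟩ : Nat.Primes)) hlN⟩
    · exact ⟨heckeGen (⟨q, hq⟩ : Nat.Primes),
        heckeEvalForms_heckeGen_of_dvd (q := (⟨q, hq⟩ : Nat.Primes)) hqN⟩
  | algebraMap r => exact ⟨MvPolynomial.C r, heckeEvalForms_C p 2 r⟩
  | add x y _ _ ihx ihy =>
    obtain ⟨a, ha⟩ := ihx
    obtain ⟨b, hb⟩ := ihy
    exact ⟨a + b, by rw [map_add, ha, hb]; rfl⟩
  | mul x y _ _ ihx ihy =>
    obtain ⟨a, ha⟩ := ihx
    obtain ⟨b, hb⟩ := ihy
    exact ⟨a * b, by rw [map_mul, ha, hb]; rfl⟩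

set_option maxHeartbeats 1000000 in
set_option synthInstance.maxHeartbeats 400000 in
theorem natCard_quotient :
    Nat.card (↥(heckeLatticeAlgebra p ∅) ⧸
        Ideal.map ((latticeRestrictHom p ∅).toRingHom.comp (heckeEvalForms p 2))
          (eisensteinIdeal p)) = eisensteinNumerator p := by
  classical
  set Θ : HeckeAlg →+* ↥(heckeLatticeAlgebra p ∅) :=
    (latticeRestrictHom p ∅).toRingHom.comp (heckeEvalForms p 2) with hΘ
  set J := Ideal.map Θ (eisensteinIdeal p)
  let θ : HeckeAlg →+* ↥(heckeLatticeAlgebra p ∅) ⧸ J := (Ideal.Quotient.mk J).comp Θ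
  have hθsurj : Function.Surjective θ :=
    Ideal.Quotient.mk_surjective.comp
      ((latticeRestrictHom_surjective p ∅).comp (heckeEvalForms_surjective p))
  have hθ : ∀ x, θ x = ((MvPolynomial.aeval (eisensteinSystem p) x : ℤ) :
      ↥(heckeLatticeAlgebra p ∅) ⧸ J) := by
    intro x
    have hmem : x - MvPolynomial.C (MvPolynomial.aeval (eisensteinSystem p) x) ∈ eisensteinIdeal p := by
      rw [eisensteinIdeal, mem_eigenIdeal_iff, map_sub, MvPolynomial.aeval_C]
      simp
    have h0 : θ (x - MvPolynomial.C (MvPolynomial.aeval (eisensteinSystem p) x)) = 0 :=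
      Ideal.Quotient.eq_zero_iff_mem.mpr (Ideal.mem_map_of_mem Θ hmem)
    rw [map_sub, sub_eq_zero] at h0
    rw [h0]
    exact eq_intCast (θ.comp MvPolynomial.C) _
  haveI := ringChar.charP (↥(heckeLatticeAlgebra p ∅) ⧸ J)
  set m := ringChar (↥(heckeLatticeAlgebra p ∅) ⧸ J) with hm
  let e : ZMod m ≃+* ↥(heckeLatticeAlgebra p ∅) ⧸ J :=
    RingEquiv.ofBijective (ZMod.castHom dvd_rfl _) ⟨ZMod.castHom_injective _, fun y => by
      obtain ⟨x, rfl⟩ := hθsurj y
      exact ⟨(MvPolynomial.aeval (eisensteinSystem p) x : ℤ), by rw [map_intCast, hθ]⟩⟩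
  rw [← Nat.card_congr e.toEquiv, Nat.card_zmod]
  -- the character of the full Hecke algebra
  let χ : CuspForm.heckeAlgebra p 2 (∅ : Set ℕ) →+* ZMod m :=
    e.symm.toRingHom.comp ((Ideal.Quotient.mk J).comp (latticeRestrictHom p ∅).toRingHom)
  have hχ : ∀ q (hq : q.Prime),
      χ (CuspForms.heckeGen p q hq) = ((1 + CuspForms.heckeWeight p q : ℕ) : ZMod m) := by
    suffices h : ∀ Q : Nat.Primes, χ (CuspForms.heckeGen p Q Q.2) =
        ((1 + CuspForms.heckeWeight p Q : ℕ) : ZMod m) from fun q hq => h ⟨q, hq⟩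
    intro Q
    have h1 : θ (heckeGen Q) =
        ((Ideal.Quotient.mk J).comp (latticeRestrictHom p ∅).toRingHom)
          (CuspForms.heckeGen p Q Q.2) := by
      rw [← heckeFormsGen_eq p Q, ← heckeEvalForms_heckeGen]
      rfl
    show e.symm _ = _
    rw [← h1, hθ, aeval_heckeGen, map_intCast]
    exact cast_eisensteinSystem p Q
  -- lower bound
  let E := AlgEquiv.ofBijective (latticeRestrictHom p ∅)
    (latticeRestrictHom_bijective p ∅ (CuspForms.hasIntegralStructure p 2))
  let χ' : ↥(heckeLatticeAlgebra p ∅) →+* ZMod (eisensteinNumerator p) :=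
    (eisChar p).comp E.symm.toRingHom
  have hcomp : χ'.comp Θ = (Int.castRingHom (ZMod (eisensteinNumerator p))).comp
      (MvPolynomial.aeval (eisensteinSystem p)).toRingHom := by
    refine MvPolynomial.ringHom_ext (fun r => ?_) (fun q => ?_)
    · rw [RingHom.comp_apply, RingHom.comp_apply]
      rw [eq_intCast MvPolynomial.C r, map_intCast, map_intCast, map_intCast, map_intCast]
    · show eisChar p (E.symm (E (heckeEvalForms p 2 (heckeGen q)))) =
        ((MvPolynomial.aeval (eisensteinSystem p) (heckeGen q) : ℤ) : ZMod _)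
      rw [E.symm_apply_apply, heckeEvalForms_heckeGen, heckeFormsGen_eq, eisChar_heckeGen,
        aeval_heckeGen, cast_eisensteinSystem]
  have hker : J ≤ RingHom.ker χ' := by
    rw [Ideal.map_le_iff_le_comap]
    intro x hx
    rw [eisensteinIdeal, mem_eigenIdeal_iff] at hx
    show χ'.comp Θ x = 0
    rw [hcomp]
    show Int.cast (R := ZMod (eisensteinNumerator p)) (MvPolynomial.aeval (R := ℤ) (eisensteinSystem p) x) = 0
    rw [hx, Int.cast_zero]
  let π : ↥(heckeLatticeAlgebra p ∅) ⧸ J →+* ZMod (eisensteinNumerator p) :=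
    Ideal.Quotient.lift J χ' fun a ha => hker ha
  have hnm : eisensteinNumerator p ∣ m := by
    have h := map_natCast π m
    rw [CharP.cast_eq_zero, map_zero] at h
    exact (ZMod.natCast_eq_zero_iff _ _).mp h.symm
  have hn0 : 0 < eisensteinNumerator p := by
    have h1 : 0 < p - 1 := by have := hp.out.two_le; omega
    exact Nat.div_pos (Nat.le_of_dvd h1 (Nat.gcd_dvd_left _ _))
      (Nat.gcd_pos_of_pos_left _ h1)
  -- upper bound
  have hM : ∀ M : ℕ, M ≠ 0 → M ∣ m → M ∣ eisensteinNumerator p := by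
    intro M hM hdvd
    haveI : NeZero M := ⟨hM⟩
    refine dvd_eisensteinNumerator ((ZMod.castHom hdvd (ZMod M)).comp χ) fun q hq => ?_
    rw [RingHom.comp_apply, hχ q hq, map_natCast]
  have hm0 : m ≠ 0 := by
    intro h0
    have h := Nat.le_of_dvd hn0 (hM (eisensteinNumerator p + 1) (by omega) (h0 ▸ dvd_zero _))
    omega
  exact Nat.dvd_antisymm (hM m hm0 dvd_rfl) hnm

end

end FLTAgent.Eisenstein
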