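import Fermat.Agent.Eisenstein.Trace
import Fermat.Prelude.Thm_ModularFormClass_qCoeff_heckeT
import Fermat.Prelude.Thm_ModularFormClass_qCoeff_heckeU
import Fermat.Prelude.Thm_ModularForm_sturm_bound_Gamma0
import Fermat.Prelude.Thm_ModularForm_coeffHeckeT_int

/-!
# Integral series of forms on `Γ₀(p)`

Everything needed later is expressed on power series with integer coefficients.
-/

set_option autoImplicit false
set_option linter.style.haveILetI false

open UpperHalfPlane CongruenceSubgroup Filter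
open scoped MatrixGroups ModularForm Manifold Topology

namespace FLTAgent.Eisenstein

noncomputable section

open FLTAgent.CuspForms

variable (p : ℕ) [hp : Fact p.Prime]

omit hp in
theorem hF_zero_series (k : ℤ) : IsForm p k 0 ∧ qExpansion 1 (0 : ℍ → ℂ) = intIncl 0 :=
  ⟨IsForm.zero, by rw [map_zero]; exact UpperHalfPlane.qExpansion_zero 1⟩

/-- The expansions with integer coefficients of forms of weight `k` on `Γ₀(p)`. -/
def forms (k : ℤ) : Submodule ℤ (PowerSeries ℤ) where
  carrier := {a | ∃ F : ℍ → ℂ, IsForm p k F ∧ qExpansion 1 F = intIncl a}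
  zero_mem' := ⟨0, hF_zero_series p k⟩
  add_mem' := by
    rintro a b ⟨F, hF, ha⟩ ⟨G, hG, hb⟩
    exact ⟨F + G, hF.add hG, by rw [hF.qExpansion_add hG, map_add, ha, hb]⟩
  smul_mem' := by
    rintro c a ⟨F, hF, ha⟩
    refine ⟨(c : ℂ) • F, hF.smul _, ?_⟩
    rw [hF.qExpansion_smul, map_zsmul, ha, Int.cast_smul_eq_zsmul]

variable {p} {k l : ℤ} {a b : PowerSeries ℤ}

omit hp

theorem mem_forms_iff :
    a ∈ forms p k ↔ ∃ F : ℍ → ℂ, IsForm p k F ∧ qExpansion 1 F = intIncl a := Iff.rfl

theorem mul_mem_forms (ha : a ∈ forms p k) (hb : b ∈ forms p l) : a * b ∈ forms p (k + l) := by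
  obtain ⟨F, hF, ha⟩ := ha
  obtain ⟨G, hG, hb⟩ := hb
  exact ⟨F * G, hF.mul hG, by rw [hF.qExpansion_mul hG, map_mul, ha, hb]⟩

theorem one_mem_forms : (1 : PowerSeries ℤ) ∈ forms p 0 := by
  refine ⟨1, IsForm.const 1, ?_⟩
  rw [map_one, UpperHalfPlane.qExpansion_one]

theorem pow_mem_forms (ha : a ∈ forms p k) (n : ℕ) : a ^ n ∈ forms p (n * k) := by
  obtain ⟨F, hF, ha⟩ := ha
  exact ⟨F ^ n, hF.pow n, by rw [hF.qExpansion_pow, map_pow, ha]⟩

theorem congr_mem_forms {m : ℤ} (ha : a ∈ forms p k) (h : k = m) : a ∈ forms p m := h ▸ ha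

theorem C_mul_eq_smul (c : ℤ) (a : PowerSeries ℤ) : PowerSeries.C c * a = c • a := by
  ext n
  simp

theorem C_mul_mem_forms (c : ℤ) (ha : a ∈ forms p k) : PowerSeries.C c * a ∈ forms p k := by
  rw [C_mul_eq_smul]
  exact Submodule.smul_mem _ c ha

theorem of_C_mul_mem_forms {c : ℤ} (hc : c ≠ 0) (h : PowerSeries.C c * a ∈ forms p k) :
    a ∈ forms p k := by
  rw [C_mul_eq_smul] at h
  obtain ⟨F, hF, h⟩ := h
  refine ⟨((c : ℂ))⁻¹ • F, hF.smul _, ?_⟩
  rw [hF.qExpansion_smul, h, map_zsmul, ← Int.cast_smul_eq_zsmul ℂ,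
    inv_smul_smul₀ (Int.cast_ne_zero.mpr hc)]

variable (p) in
theorem forms_of_levelOne {k : ℤ} (E : ModularForm 𝒮ℒ k) (e : PowerSeries ℤ)
    (h : qExpansion 1 E = intIncl e) : e ∈ forms p k :=
  ⟨E, (isForm_one_of_levelOne E).mono (one_dvd p), h⟩

include hp

theorem eq_zero_of_coeff (ha : a ∈ forms p k)
    (h : ∀ n ≤ (k * ((p + 1 : ℕ) : ℤ)).toNat / 12, PowerSeries.coeff n a = 0) : a = 0 := by
  obtain ⟨F, hF, ha⟩ := ha
  have h0 : hF.toModularForm = 0 := by
    refine ModularForm.sturm_bound_Gamma0 p _ fun n hn => ?_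
    rw [index_Gamma0_prime] at hn
    rw [IsForm.coe_toModularForm, ha, coeff_intIncl, h n hn, Int.cast_zero]
  have hF0 : F = 0 := by
    funext τ
    exact DFunLike.congr_fun h0 τ
  apply intIncl_injective
  rw [← ha, hF0, UpperHalfPlane.qExpansion_zero, map_zero]

/-! ### Operators -/

/-- `a ↦ ∑ a(nq) X^n`. -/
def upSeries (q : ℕ) (a : PowerSeries ℤ) : PowerSeries ℤ :=
  PowerSeries.mk fun n => PowerSeries.coeff (n * q) a

omit hp in
@[simp] theorem coeff_upSeries (q : ℕ) (a : PowerSeries ℤ) (n : ℕ) :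
    PowerSeries.coeff n (upSeries q a) = PowerSeries.coeff (n * q) a :=
  PowerSeries.coeff_mk _ _

/-- The Hecke operator of prime index `q` and weight `w + 1`. -/
def tSeries (w q : ℕ) (a : PowerSeries ℤ) : PowerSeries ℤ :=
  PowerSeries.mk fun n => PowerSeries.coeff (n * q) a +
    if q ∣ n then (q : ℤ) ^ w * PowerSeries.coeff (n / q) a else 0

omit hp in
@[simp] theorem coeff_tSeries (w q : ℕ) (a : PowerSeries ℤ) (n : ℕ) :
    PowerSeries.coeff n (tSeries w q a) = PowerSeries.coeff (n * q) a +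
      if q ∣ n then (q : ℤ) ^ w * PowerSeries.coeff (n / q) a else 0 :=
  PowerSeries.coeff_mk _ _

theorem isForm_heckeU {F : ℍ → ℂ} (hF : IsForm p k F) :
    IsForm p k (ModularForm.heckeU k p F) :=
  isForm_of_modularForm (ModularForm.heckeULin k (dvd_refl p) hF.toModularForm)

theorem qExpansion_heckeU {F : ℍ → ℂ} (hF : IsForm p k F) {a : PowerSeries ℤ}
    (h : qExpansion 1 F = intIncl a) :
    qExpansion 1 (ModularForm.heckeU k p F) = intIncl (upSeries p a) := by
  ext n
  have := ModularFormClass.qCoeff_heckeU (k := k) hF.toModularForm (one_mem_strictPeriods_Gamma0 p)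
    hp.out.ne_zero n
  simp only [IsForm.coe_toModularForm, ModularFormClass.qCoeff, h,
    ModularForm.coeffHeckeU_apply] at this
  rw [this]
  simp

theorem upSeries_mem_forms (ha : a ∈ forms p k) : upSeries p a ∈ forms p k := by
  obtain ⟨F, hF, ha⟩ := ha
  exact ⟨_, isForm_heckeU hF, qExpansion_heckeU hF ha⟩

theorem tSeries_mem_forms {w q : ℕ} (hq : q.Prime) (hqp : q ≠ p)
    (ha : a ∈ forms p (w + 1)) : tSeries w q a ∈ forms p (w + 1) := by
  obtain ⟨F, hF, ha⟩ := ha
  have hqN : ¬ q ∣ p := fun h => hqp ((Nat.prime_dvd_prime_iff_eq hq hp.out).mp h)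
  refine ⟨_, isForm_of_modularForm (ModularForm.heckeTLin (w + 1 : ℤ) hq hqN hF.toModularForm), ?_⟩
  ext n
  have := ModularFormClass.qCoeff_heckeT (k := (w + 1 : ℤ)) hF.toModularForm
    (one_mem_strictPeriods_Gamma0 p) hq.ne_zero n
  simp only [IsForm.coe_toModularForm, ModularFormClass.qCoeff, ha,
    ModularForm.coeffHeckeT_apply] at this
  rw [ModularForm.coe_heckeTLin_apply, IsForm.coe_toModularForm, this]
  simp only [coeff_intIncl, coeff_tSeries, add_sub_cancel_right, zpow_natCast]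
  push_cast
  rfl

/-! ### Level one input -/

/-- `∑ σ_j(n) X^n`. -/
def sigmaSeries (j : ℕ) : PowerSeries ℤ :=
  PowerSeries.mk fun n => ((ArithmeticFunction.sigma j n : ℕ) : ℤ)

omit hp in
@[simp] theorem coeff_sigmaSeries (j n : ℕ) :
    PowerSeries.coeff n (sigmaSeries j) = ((ArithmeticFunction.sigma j n : ℕ) : ℤ) :=
  PowerSeries.coeff_mk _ _

/-- The series of `E₄`. -/
def e4 : PowerSeries ℤ := 1 + PowerSeries.C 240 * sigmaSeries 3

/-- The series of `E₆`. -/
def e6 : PowerSeries ℤ := 1 - PowerSeries.C 504 * sigmaSeries 5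

omit hp in
theorem coeff_e4 (n : ℕ) : PowerSeries.coeff n e4 =
    if n = 0 then 1 else 240 * ((ArithmeticFunction.sigma 3 n : ℕ) : ℤ) := by
  rw [e4, C_mul_eq_smul, map_add, map_zsmul, coeff_sigmaSeries, PowerSeries.coeff_one]
  rcases eq_or_ne n 0 with rfl | hn
  · simp
  · simp [hn]

omit hp in
theorem coeff_e6 (n : ℕ) : PowerSeries.coeff n e6 =
    if n = 0 then 1 else -504 * ((ArithmeticFunction.sigma 5 n : ℕ) : ℤ) := by
  rw [e6, C_mul_eq_smul, map_sub, map_zsmul, coeff_sigmaSeries, PowerSeries.coeff_one]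
  rcases eq_or_ne n 0 with rfl | hn
  · simp
  · simp [hn]

omit hp in
theorem qExpansion_E4 : qExpansion 1 ModularForm.E₄ = intIncl e4 := by
  ext n
  rw [EisensteinSeries.E_qExpansion_coeff _ ⟨2, rfl⟩, show bernoulli 4 = -1 / 30 by decide +kernel,
    coeff_intIncl, coeff_e4]
  split_ifs <;> norm_num

omit hp in
theorem qExpansion_E6 : qExpansion 1 ModularForm.E₆ = intIncl e6 := by
  ext n
  rw [EisensteinSeries.E_qExpansion_coeff _ ⟨3, rfl⟩, show bernoulli 6 = 1 / 42 by decide +kernel,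
    coeff_intIncl, coeff_e6]
  split_ifs <;> norm_num

omit hp in
theorem e4_mem_forms : e4 ∈ forms p 4 := forms_of_levelOne p _ e4 qExpansion_E4

omit hp in
theorem e6_mem_forms : e6 ∈ forms p 6 := forms_of_levelOne p _ e6 qExpansion_E6

omit hp in
theorem levelOne_two_eq_zero {G : ℍ → ℂ} (hG : IsForm 1 2 G) : G = 0 := by
  have h0 : hG.toLevelOne = 0 :=
    rank_zero_iff_forall_zero.mp ModularForm.levelOne_weight_two_rank_zero _
  have := congrArg (fun g : ModularForm 𝒮ℒ 2 => (g : ℍ → ℂ)) h0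
  simpa using this

omit hp in
theorem levelOne_four_eq {G : ℍ → ℂ} (hG : IsForm 1 4 G) :
    qExpansion 1 G = PowerSeries.coeff 0 (qExpansion 1 G) • intIncl e4 := by
  set c := PowerSeries.coeff 0 (qExpansion 1 G)
  have h4 := isForm_one_of_levelOne ModularForm.E₄
  have hD : IsForm 1 4 (G + (-c) • ⇑ModularForm.E₄) := hG.add (h4.smul (-c))
  have hq : qExpansion 1 (G + (-c) • ⇑ModularForm.E₄) = qExpansion 1 G + (-c) • intIncl e4 := by
    rw [hG.qExpansion_add (h4.smul (-c)), h4.qExpansion_smul, qExpansion_E4]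
  have h0 : hD.toModularForm = 0 := by
    refine ModularForm.sturm_bound_Gamma0 1 _ fun n hn => ?_
    rw [gamma0_one_eq_top, Subgroup.index_top] at hn
    have hn0 : n = 0 := by simpa using hn
    subst hn0
    rw [IsForm.coe_toModularForm, hq, map_add, PowerSeries.coeff_smul, coeff_intIncl, coeff_e4]
    simp [c]
  have hz : G + (-c) • ⇑ModularForm.E₄ = 0 := by
    funext τ
    exact DFunLike.congr_fun h0 τ
  rw [hz, UpperHalfPlane.qExpansion_zero] at hq
  rw [_root_.neg_smul, ← sub_eq_add_neg] at hq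
  exact sub_eq_zero.mp hq.symm

/-! ### Consequences of the trace -/

theorem twist_eq_neg_heckeU {F : ℍ → ℂ} (hF : IsForm p 2 F) :
    twist p 2 F = -ModularForm.heckeU 2 p F := by
  have h := levelOne_two_eq_zero (isForm_trace (isForm_twist hF))
  rw [twist_twist hF] at h
  simp only [sub_self, zpow_zero, one_smul] at h
  exact eq_neg_of_add_eq_zero_left h

theorem heckeU_heckeU {F : ℍ → ℂ} (hF : IsForm p 2 F) :
    ModularForm.heckeU 2 p (ModularForm.heckeU 2 p F) = F := by
  have h := levelOne_two_eq_zero (isForm_trace hF)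
  rw [twist_eq_neg_heckeU hF, ModularForm.heckeU_neg] at h
  simp only [sub_self, zpow_zero, one_smul] at h
  exact (sub_eq_zero.mp ((sub_eq_add_neg _ _).trans h)).symm

/-- In weight two the square of `U_p` is the identity. -/
theorem upSeries_upSeries (ha : a ∈ forms p 2) : upSeries p (upSeries p a) = a := by
  obtain ⟨F, hF, ha⟩ := ha
  apply intIncl_injective
  rw [← qExpansion_heckeU (isForm_heckeU hF) (qExpansion_heckeU hF ha), heckeU_heckeU hF, ha]

/-- The trace to level one of a product of two forms of weight two. -/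
theorem trace_mul_eq (ha : a ∈ forms p 2) (hb : b ∈ forms p 2) (n : ℕ) :
    PowerSeries.coeff n (PowerSeries.C (p : ℤ) * (a * b) + upSeries p (upSeries p a * upSeries p b)) =
      PowerSeries.coeff 0
        (PowerSeries.C (p : ℤ) * (a * b) + upSeries p (upSeries p a * upSeries p b)) *
        PowerSeries.coeff n e4 := by
  obtain ⟨A, hA, ha⟩ := ha
  obtain ⟨B, hB, hb⟩ := hb
  have hp0 : (p : ℂ) ≠ 0 := by exact_mod_cast hp.out.ne_zero
  set S := PowerSeries.C (p : ℤ) * (a * b) + upSeries p (upSeries p a * upSeries p b)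
  have hAU := isForm_heckeU hA
  have hBU := isForm_heckeU hB
  have hP : IsForm p 4 (A * B) := (hA.mul hB).congr_weight (by norm_num)
  have hQ : IsForm p 4 (ModularForm.heckeU 2 p A * ModularForm.heckeU 2 p B) :=
    (hAU.mul hBU).congr_weight (by norm_num)
  have hW : twist p 4 (A * B) =
      (p : ℂ) • (ModularForm.heckeU 2 p A * ModularForm.heckeU 2 p B) := by
    rw [show (4 : ℤ) = 2 + 2 by norm_num, twist_mul, twist_eq_neg_heckeU hA, twist_eq_neg_heckeU hB,
      neg_mul_neg]
  have hT := (isForm_trace hP).smul (p : ℂ)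
  have hTq : qExpansion 1 ((p : ℂ) • (A * B + (p : ℂ) ^ (2 - (4 : ℤ)) •
      ModularForm.heckeU 4 p (twist p 4 (A * B)))) = intIncl S := by
    have hsc : (p : ℂ) * (p : ℂ) ^ (2 - (4 : ℤ)) * (p : ℂ) = 1 := by
      rw [← zpow_one_add₀ hp0, ← zpow_add_one₀ hp0]
      norm_num
    rw [hW, ModularForm.heckeU_smul, smul_add, smul_smul, smul_smul, hsc, one_smul,
      (hP.smul (p : ℂ)).qExpansion_add (isForm_heckeU hQ), hP.qExpansion_smul,
      hA.qExpansion_mul hB, qExpansion_heckeU hQ (a := upSeries p a * upSeries p b) (by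
        rw [hAU.qExpansion_mul hBU, map_mul, qExpansion_heckeU hA ha, qExpansion_heckeU hB hb]),
      ha, hb]
    rw [map_add, C_mul_eq_smul, map_zsmul, map_mul, ← Int.cast_smul_eq_zsmul ℂ, Int.cast_natCast]
  have key := levelOne_four_eq hT
  rw [hTq] at key
  have := congrArg (PowerSeries.coeff n) key
  rw [PowerSeries.coeff_smul, coeff_intIncl, coeff_intIncl, coeff_intIncl, smul_eq_mul] at this
  exact_mod_cast this

/-! ### The Eisenstein series of level `p` -/

/-- The sum of the divisors of `n` which are prime to `p`. -/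
def sigmaPrime (p n : ℕ) : ℕ := ∑ d ∈ n.divisors with ¬ p ∣ d, d

/-- The series of `p E₂(pτ) - E₂(τ)`. -/
def eisSeries (p : ℕ) : PowerSeries ℤ :=
  PowerSeries.mk fun n => if n = 0 then (p : ℤ) - 1 else 24 * (sigmaPrime p n : ℤ)

omit hp in
theorem coeff_eisSeries (n : ℕ) :
    PowerSeries.coeff n (eisSeries p) = if n = 0 then (p : ℤ) - 1 else 24 * (sigmaPrime p n : ℤ) :=
  PowerSeries.coeff_mk _ _

theorem sigma_one_eq (n : ℕ) (hn : n ≠ 0) :
    ArithmeticFunction.sigma 1 n =
      sigmaPrime p n + p * (if p ∣ n then ArithmeticFunction.sigma 1 (n / p) else 0) := by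
  rw [ArithmeticFunction.sigma_one_apply, sigmaPrime,
    ← Finset.sum_filter_add_sum_filter_not n.divisors (fun d => ¬ p ∣ d)]
  congr 1
  simp only [not_not]
  split_ifs with hpn
  · rw [ArithmeticFunction.sigma_one_apply, Finset.mul_sum]
    obtain ⟨m, rfl⟩ := hpn
    rw [Nat.mul_div_cancel_left _ hp.out.pos]
    symm
    refine Finset.sum_bij' (fun d _ => p * d) (fun d _ => d / p) ?_ ?_ ?_ ?_ ?_
    · intro d hd
      rw [Nat.mem_divisors] at hd
      rw [Finset.mem_filter, Nat.mem_divisors]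
      exact ⟨⟨Nat.mul_dvd_mul_left p hd.1, hn⟩, dvd_mul_right _ _⟩
    · intro d hd
      rw [Finset.mem_filter, Nat.mem_divisors] at hd
      obtain ⟨⟨hd, -⟩, e, rfl⟩ := hd
      rw [Nat.mul_div_cancel_left _ hp.out.pos, Nat.mem_divisors]
      exact ⟨Nat.dvd_of_mul_dvd_mul_left hp.out.pos hd, (Nat.mul_ne_zero_iff.mp hn).2⟩
    · intro d _
      exact Nat.mul_div_cancel_left _ hp.out.pos
    · intro d hd
      rw [Finset.mem_filter] at hd
      exact Nat.mul_div_cancel' hd.2
    · intros; rfl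
  · rw [mul_zero]
    refine Finset.sum_eq_zero fun d hd => ?_
    rw [Finset.mem_filter, Nat.mem_divisors] at hd
    exact absurd (hd.2.trans hd.1.1) hpn

/-- The function `p E₂(pτ) - E₂(τ)`. -/
def eisFun (p : ℕ) : ℍ → ℂ :=
  EisensteinSeries.E2 ∣[(2 : ℤ)] ModularForm.heckeDiagMatrix p - EisensteinSeries.E2

omit hp in
theorem D2_apply (γ : SL(2, ℤ)) (τ : ℍ) :
    EisensteinSeries.D2 γ τ =
      2 * Real.pi * Complex.I * (γ 1 0 : ℤ) / ((γ 1 0 : ℤ) * (τ : ℂ) + (γ 1 1 : ℤ)) := by
  rw [EisensteinSeries.D2, CuspForms.denom_SL]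

theorem isForm_eisFun : IsForm p 2 (eisFun p) := by
  have hp0 : (p : ℂ) ≠ 0 := by exact_mod_cast hp.out.ne_zero
  set κ : ℂ := 1 / (2 * riemannZeta 2)
  refine isForm_mk (((E2_mdifferentiable).slash 2 _).sub
    E2_mdifferentiable) ?_ ?_ ?_
  · intro γ hγ
    rw [Gamma0_mem, ZMod.intCast_zmod_eq_zero_iff_dvd] at hγ
    obtain ⟨c, hc⟩ := hγ
    have hdet := γ.2
    rw [Matrix.det_fin_two] at hdet
    set γ' : SL(2, ℤ) := ⟨!![γ 0 0, (p : ℤ) * γ 0 1; c, γ 1 1], by
      rw [Matrix.det_fin_two_of]; linear_combination hdet + γ 0 1 * hc⟩ with hγ'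
    have hrel : ModularForm.heckeDiagMatrix p * Matrix.SpecialLinearGroup.mapGL ℝ γ =
        Matrix.SpecialLinearGroup.mapGL ℝ γ' * ModularForm.heckeDiagMatrix p := by
      refine Units.ext ?_
      simp only [Units.val_mul, mapGL_coe, ModularForm.val_heckeDiagMatrix hp.out.ne_zero]
      ext i j
      fin_cases i <;> fin_cases j <;> simp [hγ', hc, Matrix.mul_apply, Fin.sum_univ_two] <;> ring
    rw [eisFun, sub_eq_add_neg, SlashAction.add_slash, SlashAction.neg_slash,
      ← slash_mapGL γ (EisensteinSeries.E2 ∣[(2 : ℤ)] ModularForm.heckeDiagMatrix p),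
      ← SlashAction.slash_mul, hrel, SlashAction.slash_mul, slash_mapGL γ',
      EisensteinSeries.E2_slash_action, EisensteinSeries.E2_slash_action]
    funext τ
    simp only [Pi.add_apply, Pi.neg_apply, ModularForm.slash_heckeDiagMatrix_apply 2 hp.out.ne_zero,
      Pi.sub_apply, Pi.smul_apply, smul_eq_mul, D2_apply,
      ModularForm.coe_heckeDiagMatrix_smul hp.out.ne_zero]
    have h10 : γ' 1 0 = c := rfl
    have h11 : γ' 1 1 = γ 1 1 := rfl
    rw [h10, h11, hc]
    push_cast
    rw [← mul_assoc (c : ℂ), mul_comm (c : ℂ) (p : ℂ)]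
    norm_num [zpow_one]
    ring
  · refine (Asymptotics.IsBigO.sub ?_ EisensteinSeries.isBoundedAtImInfty_E2)
    have : EisensteinSeries.E2 ∣[(2 : ℤ)] ModularForm.heckeDiagMatrix p = fun τ : ℍ =>
        (p : ℂ) ^ ((2 : ℤ) - 1) * EisensteinSeries.E2 (ModularForm.heckeDiagMatrix p • τ) :=
      funext fun τ => ModularForm.slash_heckeDiagMatrix_apply 2 hp.out.ne_zero _ τ
    rw [this]
    exact (Filter.const_boundedAtFilter atImInfty _).mul
      (EisensteinSeries.isBoundedAtImInfty_E2.comp_tendsto tendsto_diag_atImInfty)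
  · have hrel : ModularForm.heckeDiagMatrix p * Matrix.SpecialLinearGroup.mapGL ℝ ModularGroup.S =
        Matrix.SpecialLinearGroup.mapGL ℝ ModularGroup.S * ModularForm.heckeMatrix p 0 := by
      refine Units.ext ?_
      simp only [Units.val_mul, mapGL_coe, ModularForm.val_heckeDiagMatrix hp.out.ne_zero,
        ModularForm.val_heckeMatrix hp.out.ne_zero]
      ext i j
      fin_cases i <;> fin_cases j <;>
        simp [ModularGroup.coe_S, Matrix.mul_apply, Fin.sum_univ_two]
    have key : eisFun p ∣[(2 : ℤ)] ModularGroup.S =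
        (fun τ : ℍ => (p : ℂ)⁻¹ * EisensteinSeries.E2 (ModularForm.heckeMatrix p 0 • τ)) -
          EisensteinSeries.E2 := by
      rw [eisFun, sub_eq_add_neg, SlashAction.add_slash, SlashAction.neg_slash,
        ← slash_mapGL ModularGroup.S (EisensteinSeries.E2 ∣[(2 : ℤ)] ModularForm.heckeDiagMatrix p),
        ← SlashAction.slash_mul, hrel, SlashAction.slash_mul, slash_mapGL,
        EisensteinSeries.E2_slash_action]
      funext τ
      simp only [Pi.add_apply, Pi.neg_apply, ModularForm.slash_heckeMatrix_apply 2 hp.out.ne_zero,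
        Pi.sub_apply, Pi.smul_apply, smul_eq_mul, D2_apply,
        ModularForm.coe_heckeMatrix_smul hp.out.ne_zero]
      simp only [ModularGroup.coe_S, Nat.cast_zero, add_zero]
      simp
      field_simp
      ring
    rw [key]
    refine Asymptotics.IsBigO.sub ?_ EisensteinSeries.isBoundedAtImInfty_E2
    exact (Filter.const_boundedAtFilter atImInfty _).mul
      (EisensteinSeries.isBoundedAtImInfty_E2.comp_tendsto (tendsto_heckeMatrix_atImInfty (p := p) 0))

theorem qExpansion_eisFun : qExpansion 1 (eisFun p) = intIncl (eisSeries p) := by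
  classical
  ext n
  rw [coeff_intIncl]
  symm
  refine ModularFormClass.qExpansion_coeff_unique (f := (isForm_eisFun (p := p)).toModularForm)
    (c := fun n => ((PowerSeries.coeff n (eisSeries p) : ℤ) : ℂ)) one_pos
    (one_mem_strictPeriods_Gamma0 p) (fun τ => ?_) n
  rw [IsForm.coe_toModularForm]
  set u : ℕ → ℂ := fun m => (if m = 0 then 1 else -24 * (ArithmeticFunction.sigma 1 m : ℕ))
  have hq : ∀ z : ℂ, Complex.exp (2 * Real.pi * Complex.I * z) = Function.Periodic.qParam 1 z :=
    fun z => by simp [Function.Periodic.qParam]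
  have h1 : HasSum (fun m : ℕ => u m • Function.Periodic.qParam 1 τ ^ m) (EisensteinSeries.E2 τ) :=
    (EisensteinSeries.hasSum_qExpansion_E2 (z := τ)).congr_fun fun m => by rw [← hq]
  have h2 : HasSum (fun m : ℕ => ((p : ℂ) * (if p ∣ m then u (m / p) else 0)) •
      Function.Periodic.qParam 1 τ ^ m)
      ((EisensteinSeries.E2 ∣[(2 : ℤ)] ModularForm.heckeDiagMatrix p) τ) := by
    rw [ModularForm.slash_heckeDiagMatrix_apply 2 hp.out.ne_zero,
      show (2 : ℤ) - 1 = 1 by norm_num, zpow_one]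
    have hinj : Function.Injective fun m : ℕ => p * m := fun a b hab =>
      mul_left_cancel₀ hp.out.ne_zero hab
    rw [← hinj.hasSum_iff]
    · have h := (EisensteinSeries.hasSum_qExpansion_E2
        (z := ModularForm.heckeDiagMatrix p • τ)).mul_left (p : ℂ)
      refine h.congr_fun fun m => ?_
      simp only [Function.comp_apply, dvd_mul_right, if_true, Nat.mul_div_cancel_left _ hp.out.pos,
        smul_eq_mul, u, pow_mul]
      rw [show Function.Periodic.qParam 1 (τ : ℂ) ^ p = Function.Periodic.qParam 1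
        ((ModularForm.heckeDiagMatrix p • τ : ℍ) : ℂ) by
          rw [ModularForm.coe_heckeDiagMatrix_smul hp.out.ne_zero]
          simp [Function.Periodic.qParam, ← Complex.exp_nat_mul]
          ring_nf]
      rw [← hq]
      ring
    · intro m hm
      rw [if_neg fun hd => hm ⟨m / p, Nat.mul_div_cancel' hd⟩]
      simp
  refine (h2.sub h1).congr_fun fun m => ?_
  rw [coeff_eisSeries]
  simp only [smul_eq_mul, u]
  rcases eq_or_ne m 0 with rfl | hm
  · simp
  · simp only [hm, if_false]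
    rw [sigma_one_eq (p := p) m hm]
    split_ifs with hd hd0
    · exfalso
      obtain ⟨e, rfl⟩ := hd
      rw [Nat.mul_div_cancel_left _ hp.out.pos] at hd0
      simp [hd0] at hm
    all_goals push_cast; ring

theorem eisSeries_mem_forms : eisSeries p ∈ forms p 2 :=
  ⟨eisFun p, isForm_eisFun, qExpansion_eisFun⟩

end

end FLTAgent.Eisenstein
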