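import Fermat.Agent.CuspForms.Translates
import Fermat.Agent.PeriodHecke.Families
import Fermat.Prelude.Def_ModularForm_HeckeOperatorForms

/-!
# Trace to level one of forms on `Γ₀(p)`

For a form `F` of weight `k` on `Γ₀(p)` we build its twist by the Fricke matrix and show that
`F + p^(2-k) U (F | W)` has level one.
-/

set_option autoImplicit false
set_option linter.style.haveILetI false

open UpperHalfPlane CongruenceSubgroup Filter
open scoped MatrixGroups ModularForm Manifold Topology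

namespace FLTAgent.Eisenstein

noncomputable section

open FLTAgent.CuspForms

variable {p : ℕ} [hp : Fact p.Prime] {k : ℤ} {F : ℍ → ℂ}

theorem mapGL_coe (γ : SL(2, ℤ)) :
    ((Matrix.SpecialLinearGroup.mapGL ℝ γ : GL (Fin 2) ℝ) : Matrix (Fin 2) (Fin 2) ℝ) =
      (γ : Matrix (Fin 2) (Fin 2) ℤ).map (Int.castRingHom ℝ) := by
  ext i j
  simp

theorem slash_mapGL (γ : SL(2, ℤ)) (f : ℍ → ℂ) :
    f ∣[k] (Matrix.SpecialLinearGroup.mapGL ℝ γ : GL (Fin 2) ℝ) = f ∣[k] γ :=
  (ModularForm.SL_slash (k := k) f γ).symm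

/-- Every element is in `Γ₀(p)` or in `Γ₀(p) S T^j`. -/
theorem exists_coset_rep (γ : SL(2, ℤ)) :
    γ ∈ Gamma0 p ∨ ∃ (δ : SL(2, ℤ)) (j : ZMod p), δ ∈ Gamma0 p ∧
      γ = δ * (ModularGroup.S * ModularGroup.T ^ (j.val : ℤ)) := by
  by_cases hc : ((γ 1 0 : ℤ) : ZMod p) = 0
  · exact Or.inl (Gamma0_mem.mpr hc)
  · set j : ZMod p := ((γ 1 1 : ℤ) : ZMod p) / ((γ 1 0 : ℤ) : ZMod p)
    refine Or.inr ⟨γ * (ModularGroup.S * ModularGroup.T ^ (j.val : ℤ))⁻¹, j, ?_, by group⟩
    rw [Gamma0_mem]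
    have h : (γ * (ModularGroup.S * ModularGroup.T ^ (j.val : ℤ))⁻¹) 1 0 =
        -(γ 1 1 - γ 1 0 * (j.val : ℤ)) := by
      simp [ModularGroup.coe_S, ModularGroup.coe_T_zpow, Matrix.SpecialLinearGroup.coe_inv,
        Matrix.adjugate_fin_two, Matrix.mul_apply, Fin.sum_univ_two, Matrix.vecHead, Matrix.vecTail]
      ring
    rw [h]
    push_cast
    rw [ZMod.natCast_zmod_val]
    simp only [j]
    field_simp
    ring

theorem slash_T_zpow_apply (f : ℍ → ℂ) (j : ℤ) (τ : ℍ) :
    (f ∣[k] (ModularGroup.T ^ j : SL(2, ℤ))) τ = f ((j : ℝ) +ᵥ τ) := by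
  rw [ModularForm.SL_slash_apply, UpperHalfPlane.modular_T_zpow_smul, CuspForms.denom_SL,
    ModularGroup.coe_T_zpow]
  simp

theorem tendsto_vadd_atImInfty (x : ℝ) : Tendsto (fun τ : ℍ => x +ᵥ τ) atImInfty atImInfty := by
  rw [atImInfty, tendsto_comap_iff]
  have : (UpperHalfPlane.im ∘ fun τ : ℍ => x +ᵥ τ) = UpperHalfPlane.im := by
    funext τ
    simp
  rw [this]
  exact tendsto_comap

/-- A criterion for being a form on `Γ₀(p)`. -/
theorem isForm_mk (hol : MDiff F) (hs : ∀ γ ∈ Gamma0 p, F ∣[k] γ = F)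
    (b0 : IsBoundedAtImInfty F) (b1 : IsBoundedAtImInfty (F ∣[k] ModularGroup.S)) :
    IsForm p k F := by
  refine ⟨hol, hs, fun γ => ?_⟩
  rcases exists_coset_rep (p := p) γ with h | ⟨δ, j, hδ, rfl⟩
  · rw [hs γ h]; exact b0
  · rw [SlashAction.slash_mul, hs δ hδ, SlashAction.slash_mul]
    have : (F ∣[k] ModularGroup.S) ∣[k] (ModularGroup.T ^ (j.val : ℤ) : SL(2, ℤ)) =
        (F ∣[k] ModularGroup.S) ∘ fun τ : ℍ => ((j.val : ℤ) : ℝ) +ᵥ τ :=
      funext fun τ => slash_T_zpow_apply _ _ τ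
    rw [this]
    exact b1.comp_tendsto (tendsto_vadd_atImInfty _)

/-! ### The Fricke twist -/

variable (p k) in
/-- `F | [[0, -1], [p, 0]]`. -/
def twist (F : ℍ → ℂ) : ℍ → ℂ :=
  F ∣[k] ((Matrix.SpecialLinearGroup.mapGL ℝ ModularGroup.S : GL (Fin 2) ℝ) *
    ModularForm.heckeDiagMatrix p)

theorem heckeDiagMatrix_smul_im (τ : ℍ) :
    (ModularForm.heckeDiagMatrix p • τ).im = (p : ℝ) * τ.im := by
  show ((ModularForm.heckeDiagMatrix p • τ : ℍ) : ℂ).im = _
  rw [ModularForm.coe_heckeDiagMatrix_smul hp.out.ne_zero]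
  simp [Complex.mul_im]

theorem heckeMatrix_smul_im (j : ℕ) (τ : ℍ) :
    (ModularForm.heckeMatrix p j • τ).im = τ.im / p := by
  show ((ModularForm.heckeMatrix p j • τ : ℍ) : ℂ).im = _
  rw [ModularForm.coe_heckeMatrix_smul hp.out.ne_zero, Complex.div_natCast_im]
  simp

theorem tendsto_diag_atImInfty :
    Tendsto (fun τ : ℍ => ModularForm.heckeDiagMatrix p • τ) atImInfty atImInfty := by
  rw [atImInfty, tendsto_comap_iff]
  have : (UpperHalfPlane.im ∘ fun τ : ℍ => ModularForm.heckeDiagMatrix p • τ) =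
      fun τ => (p : ℝ) * τ.im := funext heckeDiagMatrix_smul_im
  rw [this]
  exact Tendsto.const_mul_atTop (by exact_mod_cast hp.out.pos) tendsto_comap

theorem tendsto_heckeMatrix_atImInfty (j : ℕ) :
    Tendsto (fun τ : ℍ => ModularForm.heckeMatrix p j • τ) atImInfty atImInfty := by
  rw [atImInfty, tendsto_comap_iff]
  have : (UpperHalfPlane.im ∘ fun τ : ℍ => ModularForm.heckeMatrix p j • τ) =
      fun τ : ℍ => τ.im / p := funext (heckeMatrix_smul_im j)
  rw [this]
  exact Tendsto.atTop_div_const (by exact_mod_cast hp.out.pos) tendsto_comap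

theorem twist_eq_comp (F : ℍ → ℂ) : twist p k F = fun τ =>
    (p : ℂ) ^ (k - 1) * (F ∣[k] ModularGroup.S) (ModularForm.heckeDiagMatrix p • τ) := by
  funext τ
  rw [twist, SlashAction.slash_mul, ModularForm.slash_heckeDiagMatrix_apply k hp.out.ne_zero,
    slash_mapGL]

theorem diag_S_eq :
    (Matrix.SpecialLinearGroup.mapGL ℝ ModularGroup.S : GL (Fin 2) ℝ) *
        ModularForm.heckeDiagMatrix p * Matrix.SpecialLinearGroup.mapGL ℝ ModularGroup.S =
      Matrix.SpecialLinearGroup.mapGL ℝ (-1 : SL(2, ℤ)) * ModularForm.heckeMatrix p 0 := by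
  refine Units.ext ?_
  rw [Units.val_mul, Units.val_mul, Units.val_mul, mapGL_coe, mapGL_coe,
    ModularForm.val_heckeDiagMatrix hp.out.ne_zero, ModularForm.val_heckeMatrix hp.out.ne_zero]
  ext i j
  fin_cases i <;> fin_cases j <;>
    simp [ModularGroup.coe_S, Matrix.mul_apply, Fin.sum_univ_two]

variable (hF : IsForm p k F)
include hF

theorem twist_slash (γ : SL(2, ℤ)) (hγ : γ ∈ Gamma0 p) : twist p k F ∣[k] γ = twist p k F := by
  set γ' : SL(2, ℤ) := (PeriodHecke.fricke p ⟨γ, hγ⟩ : SL(2, ℤ))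
  have hγ' : γ' ∈ Gamma0 p := (PeriodHecke.fricke p ⟨γ, hγ⟩).2
  have hrel : ((Matrix.SpecialLinearGroup.mapGL ℝ ModularGroup.S : GL (Fin 2) ℝ) *
        ModularForm.heckeDiagMatrix p) * Matrix.SpecialLinearGroup.mapGL ℝ γ =
      Matrix.SpecialLinearGroup.mapGL ℝ γ' *
        ((Matrix.SpecialLinearGroup.mapGL ℝ ModularGroup.S : GL (Fin 2) ℝ) *
          ModularForm.heckeDiagMatrix p) := by
    refine Units.ext ?_
    have h := congrArg (fun M : Matrix (Fin 2) (Fin 2) ℤ => M.map (Int.castRingHom ℝ))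
      (PeriodHecke.fricke_rel p ⟨γ, hγ⟩)
    simp only [Matrix.map_mul] at h
    have hW : (ModularGroup.S : Matrix (Fin 2) (Fin 2) ℤ).map (Int.castRingHom ℝ) *
        !![(p : ℝ), 0; 0, 1] = (PeriodHecke.frickeMat p).map (Int.castRingHom ℝ) := by
      ext i j
      fin_cases i <;> fin_cases j <;>
        simp [ModularGroup.coe_S, PeriodHecke.frickeMat, Matrix.mul_apply, Fin.sum_univ_two]
    simp only [Units.val_mul, mapGL_coe, ModularForm.val_heckeDiagMatrix hp.out.ne_zero, hW]
    exact h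
  rw [twist, ← slash_mapGL γ, ← SlashAction.slash_mul, hrel, SlashAction.slash_mul,
    slash_mapGL γ', hF.slash γ' hγ']

theorem twist_slash_S :
    twist p k F ∣[k] ModularGroup.S = F ∣[k] ModularForm.heckeMatrix p 0 := by
  rw [twist, ← slash_mapGL ModularGroup.S, ← SlashAction.slash_mul, diag_S_eq,
    SlashAction.slash_mul, slash_mapGL, hF.slash (-1) (by simp [Gamma0_mem])]

theorem isForm_twist : IsForm p k (twist p k F) := by
  refine isForm_mk (hF.holo.slash k _) (twist_slash hF) ?_ ?_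
  · rw [twist_eq_comp]
    exact (Filter.const_boundedAtFilter atImInfty ((p : ℂ) ^ (k - 1))).mul
      ((hF.bdd _).comp_tendsto tendsto_diag_atImInfty)
  · rw [twist_slash_S hF]
    have : F ∣[k] ModularForm.heckeMatrix p 0 = fun τ =>
        (p : ℂ)⁻¹ * F (ModularForm.heckeMatrix p 0 • τ) :=
      funext fun τ => ModularForm.slash_heckeMatrix_apply k hp.out.ne_zero 0 F τ
    rw [this]
    exact (Filter.const_boundedAtFilter atImInfty ((p : ℂ)⁻¹)).mul
      (hF.bdd_infty.comp_tendsto (tendsto_heckeMatrix_atImInfty 0))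

theorem twist_twist : twist p k (twist p k F) = (p : ℂ) ^ (k - 2) • F := by
  have hp0 : (p : ℂ) ≠ 0 := by exact_mod_cast hp.out.ne_zero
  funext τ
  rw [twist_eq_comp (twist p k F), twist_slash_S hF]
  simp only [ModularForm.slash_heckeMatrix_apply k hp.out.ne_zero, Pi.smul_apply, smul_eq_mul]
  rw [show ModularForm.heckeMatrix p 0 • (ModularForm.heckeDiagMatrix p • τ) = τ from ?_,
    ← mul_assoc, show k - 2 = (k - 1) + (-1) by ring, zpow_add₀ hp0, zpow_neg_one]
  ext
  rw [ModularForm.coe_heckeMatrix_smul hp.out.ne_zero,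
    ModularForm.coe_heckeDiagMatrix_smul hp.out.ne_zero]
  simp [hp0]

omit hF

theorem twist_mul {l : ℤ} (F G : ℍ → ℂ) :
    twist p (k + l) (F * G) = (p : ℂ) • (twist p k F * twist p l G) := by
  rw [twist, ModularForm.mul_slash]
  have hdet : ((((Matrix.SpecialLinearGroup.mapGL ℝ ModularGroup.S : GL (Fin 2) ℝ) *
      ModularForm.heckeDiagMatrix p)).det : ℝ) = p := by
    rw [map_mul, Units.val_mul, ModularForm.det_heckeDiagMatrix hp.out.ne_zero]
    simp
  rw [hdet, Nat.abs_cast]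
  funext τ
  simp [twist]

/-! ### Cosets -/

variable (p) in
/-- Representatives of the cosets. -/
def cosetRep : Option (ZMod p) → Coset p
  | none => ((1 : SL(2, ℤ)) : Coset p)
  | some j => (((ModularGroup.S * ModularGroup.T ^ (j.val : ℤ))⁻¹ : SL(2, ℤ)) : Coset p)

theorem lower_left_ST (j : ℤ) :
    (ModularGroup.S * ModularGroup.T ^ j : SL(2, ℤ)) 1 0 = 1 := by
  simp [ModularGroup.coe_S, ModularGroup.coe_T_zpow, Matrix.mul_apply, Fin.sum_univ_two]

theorem lower_left_ST_ST (i j : ℤ) :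
    ((ModularGroup.S * ModularGroup.T ^ i) * (ModularGroup.S * ModularGroup.T ^ j)⁻¹ :
      SL(2, ℤ)) 1 0 = j - i := by
  simp [ModularGroup.coe_S, ModularGroup.coe_T_zpow, Matrix.SpecialLinearGroup.coe_inv,
    Matrix.adjugate_fin_two, Matrix.mul_apply, Fin.sum_univ_two]
  ring

variable (p) in
theorem cosetRep_bijective : Function.Bijective (cosetRep p) := by
  constructor
  · rintro (_ | i) (_ | j) h
    · rfl
    · rw [cosetRep, cosetRep, QuotientGroup.eq] at h
      simp only [inv_one, one_mul] at h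
      rw [inv_mem_iff, Gamma0_mem, lower_left_ST] at h
      simp at h
    · rw [cosetRep, cosetRep, QuotientGroup.eq] at h
      simp only [inv_inv, mul_one] at h
      rw [Gamma0_mem, lower_left_ST] at h
      simp at h
    · rw [cosetRep, cosetRep, QuotientGroup.eq, inv_inv, Gamma0_mem, lower_left_ST_ST] at h
      push_cast at h
      rw [ZMod.natCast_zmod_val, ZMod.natCast_zmod_val, sub_eq_zero] at h
      rw [h]
  · intro q
    induction q using QuotientGroup.induction_on with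
    | H g =>
      rcases exists_coset_rep (p := p) g⁻¹ with h | ⟨δ, j, hδ, h⟩
      · refine ⟨none, ?_⟩
        rw [cosetRep, QuotientGroup.eq, inv_one, one_mul]
        simpa using h
      · refine ⟨some j, ?_⟩
        rw [cosetRep, QuotientGroup.eq, inv_inv]
        have : ModularGroup.S * ModularGroup.T ^ (j.val : ℤ) * g = δ⁻¹ := by
          rw [show g = (g⁻¹)⁻¹ from (inv_inv g).symm, h]
          group
        rw [this]
        exact inv_mem hδ

theorem index_Gamma0_prime : (Gamma0 p).index = p + 1 := by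
  rw [Subgroup.index_eq_card, ← Nat.card_congr (Equiv.ofBijective _ (cosetRep_bijective p)),
    Nat.card_eq_fintype_card, Fintype.card_option, ZMod.card]

/-- The trace to level one. -/
theorem isForm_trace (hF : IsForm p k F) :
    IsForm 1 k (F + (p : ℂ) ^ (2 - k) • ModularForm.heckeU k p (twist p k F)) := by
  classical
  have hp0 : (p : ℂ) ≠ 0 := by exact_mod_cast hp.out.ne_zero
  have h1 := IsForm.isForm_mixedSum hF (IsForm.const (N := p) (1 : ℂ)) 0
  have key : hF.mixedSum (IsForm.const (N := p) (1 : ℂ)) 0 =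
      F + (p : ℂ) ^ (2 - k) • ModularForm.heckeU k p (twist p k F) := by
    funext τ
    simp only [IsForm.mixedSum, pow_zero, mul_one]
    rw [← (cosetRep_bijective p).sum_comp, Fintype.sum_option]
    simp only [cosetRep, IsForm.translate_mk, inv_inv, Pi.add_apply,
      Pi.smul_apply, smul_eq_mul]
    congr 1
    · rw [inv_one, SlashAction.slash_one]
    rw [ModularForm.heckeU_apply k hp.out.ne_zero, Finset.mul_sum, Finset.mul_sum]
    refine Finset.sum_bij' (fun j _ => j.val) (fun j _ => (j : ZMod p))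
      (fun j _ => Finset.mem_range.mpr (ZMod.val_lt j)) (fun _ _ => Finset.mem_univ _)
      (fun j _ => ZMod.natCast_zmod_val j)
      (fun j hj => ZMod.val_natCast_of_lt (Finset.mem_range.mp hj)) fun j _ => ?_
    rw [twist_eq_comp, SlashAction.slash_mul, slash_T_zpow_apply]
    have hsm : ModularForm.heckeDiagMatrix p • (ModularForm.heckeMatrix p j.val • τ) =
        (((j.val : ℤ) : ℝ) +ᵥ τ) := by
      ext
      rw [ModularForm.coe_heckeDiagMatrix_smul hp.out.ne_zero,
        ModularForm.coe_heckeMatrix_smul hp.out.ne_zero, UpperHalfPlane.coe_vadd,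
        mul_div_cancel₀ _ hp0]
      push_cast
      ring
    simp only
    rw [hsm, ← mul_assoc, ← mul_assoc]
    have : (p : ℂ) ^ (2 - k) * ((p : ℂ)⁻¹) * (p : ℂ) ^ (k - 1) = 1 := by
      rw [← zpow_neg_one, ← zpow_add₀ hp0, ← zpow_add₀ hp0,
        show 2 - k + -1 + (k - 1) = 0 by ring, zpow_zero]
    rw [this, one_mul]
  rw [key] at h1
  exact h1.congr_weight (by simp)

end

end FLTAgent.Eisenstein
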