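import Fermat.Agent.Eisenstein.Dual
import Fermat.Prelude.Def_ModularCurve_ModularUnit

/-!
# Eisenstein congruences are bounded by the Eisenstein numerator
-/

set_option autoImplicit false
set_option linter.style.haveILetI false

open CongruenceSubgroup

namespace FLTAgent.Eisenstein

noncomputable section

open FLTAgent.CuspForms PowerSeries

variable {p : ℕ} [hp : Fact p.Prime]

/-- The normalised difference of the Eisenstein series and a congruent cusp form. -/
theorem exists_const_series {a : PowerSeries ℤ} (ha : a ∈ forms p 2) (ha0 : coeff 0 a = 0)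
    {l v e c : ℕ} (hl : l ≠ 0) (hv : p - 1 = l ^ v * c)
    (hdiv : ∀ n, n ≠ 0 → (l : ℤ) ^ (v + e) ∣ 24 * ((sigmaPrime p n : ℤ) - coeff n a)) :
    ∃ g ∈ forms p 2, coeff 0 g = (c : ℤ) ∧ ∀ n, n ≠ 0 → (l : ℤ) ^ e ∣ coeff n g := by
  choose z hz using hdiv
  set g : PowerSeries ℤ := PowerSeries.mk fun n =>
    if h : n = 0 then (c : ℤ) else (l : ℤ) ^ e * z n h
  refine ⟨g, of_C_mul_mem_forms (c := (l : ℤ) ^ v) (pow_ne_zero v (by exact_mod_cast hl)) ?_,
    by simp [g], fun n hn => by simp [g, hn]⟩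
  have : C ((l : ℤ) ^ v) * g = eisSeries p - C 24 * a := by
    ext n
    rw [coeff_C_mul, map_sub, coeff_C_mul, coeff_eisSeries, coeff_mk]
    rcases eq_or_ne n 0 with rfl | hn
    · rw [dif_pos rfl, if_pos rfl, ha0, mul_zero, sub_zero]
      have h1 := hp.out.one_le
      rw [← Nat.cast_one, ← Nat.cast_sub h1, hv]
      push_cast
      ring
    · rw [dif_neg hn, if_neg hn, ← mul_assoc, ← pow_add, ← hz n hn]
      ring
  rw [this]
  exact sub_mem eisSeries_mem_forms (C_mul_mem_forms _ ha)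

theorem subsingleton_heckeAlgebra (h : p ≤ 3) :
    Subsingleton (CuspForm.heckeAlgebra p 2 (∅ : Set ℕ)) := by
  have h0 : ∀ f : CuspForm (Gamma0 p) 2, f = 0 := by
    intro f
    refine eq_zero_of_qCoeff_le fun n hn => ?_
    rw [index_Gamma0_prime] at hn
    obtain rfl : n = 0 := by
      have := hp.out.two_le
      interval_cases p <;> simp at hn <;> omega
    exact qCoeff_zero_index f
  exact ⟨fun s t => Subtype.ext (LinearMap.ext fun f => by rw [h0 f, map_zero, map_zero])⟩

theorem prime_pow_dvd_eisensteinNumerator (hp3 : 3 < p) {l s : ℕ} [hl : Fact l.Prime]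
    (χ : CuspForm.heckeAlgebra p 2 (∅ : Set ℕ) →+* ZMod (l ^ s))
    (hχ : ∀ q (hq : q.Prime),
      χ (CuspForms.heckeGen p q hq) = ((1 + heckeWeight p q : ℕ) : ZMod (l ^ s))) :
    l ^ s ∣ ModularCurve.eisensteinNumerator p := by
  by_contra hcon
  set n := ModularCurve.eisensteinNumerator p with hn
  set G := Nat.gcd (p - 1) 12 with hG
  have hs : 0 < s := by
    rcases Nat.eq_zero_or_pos s with rfl | h
    · simp at hcon
    · exact h
  have hnG : n * G = p - 1 := Nat.div_mul_cancel (Nat.gcd_dvd_left _ _)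
  have hG12 : G ∣ 12 := Nat.gcd_dvd_right _ _
  obtain ⟨v, c, hc, hv⟩ := Nat.exists_eq_pow_mul_and_not_dvd (show p - 1 ≠ 0 by omega) l hl.out.ne_one
  obtain ⟨a, ha, ha0, hacongr⟩ := exists_series_congr χ hχ
  have hls : ∀ m, m ≠ 0 → ((l : ℤ) ^ s) ∣ (sigmaPrime p m : ℤ) - coeff m a := by
    intro m hm
    have := (ZMod.intCast_eq_intCast_iff_dvd_sub (coeff m a) (sigmaPrime p m : ℤ) (l ^ s)).mp
      (by rw [hacongr m hm, Int.cast_natCast])
    exact_mod_cast this
  have ha1 : ¬ (l : ℤ) ∣ coeff 1 a := by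
    intro h
    have h1 := dvd_trans (dvd_pow_self (l : ℤ) hs.ne') (hls 1 one_ne_zero)
    rw [sigmaPrime_one, dvd_sub_left h] at h1
    exact hl.out.not_dvd_one (by exact_mod_cast h1)
  have hc' : ¬ (l : ℤ) ∣ (c : ℤ) := fun h => hc (Int.natCast_dvd_natCast.mp h)
  have hp2 : p ≠ 2 := by omega
  have hlv : ∀ t, t ≤ v → l ^ t ∣ n * G := fun t ht => by
    rw [hnG, hv]; exact dvd_mul_of_dvd_left (pow_dvd_pow l ht) _
  -- the congruence available
  have hmk : ∀ e j : ℕ, v + e ≤ s + j → (l : ℤ) ^ j ∣ 24 →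
      ∃ g ∈ forms p 2, coeff 0 g = (c : ℤ) ∧ ∀ m, m ≠ 0 → (l : ℤ) ^ e ∣ coeff m g := by
    intro e j hej hj
    refine exists_const_series ha ha0 hl.out.ne_zero hv fun m hm => ?_
    refine dvd_trans (pow_dvd_pow _ hej) ?_
    rw [pow_add, mul_comm (24 : ℤ)]
    exact mul_dvd_mul (hls m hm) hj
  by_cases h2 : l = 2
  · subst h2
    by_cases h4 : p % 4 = 1
    · have h4G : 4 ∣ G := Nat.dvd_gcd (by omega) (by norm_num)
      obtain ⟨g', hg'⟩ := h4G
      have hg3 : g' ∣ 3 := by
        rw [hg'] at hG12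
        exact Nat.dvd_of_mul_dvd_mul_left (by norm_num) (hG12 : 4 * g' ∣ 4 * 3)
      have hsv : v + 2 ≤ s + 3 := by
        by_contra hlt
        have h := hlv (s + 2) (by omega)
        rw [hg', ← mul_assoc, mul_comm n 4, mul_assoc, pow_add, mul_comm] at h
        have h' : 2 ^ s ∣ n * g' := Nat.dvd_of_mul_dvd_mul_left (by norm_num) h
        exact hcon ((Nat.Coprime.coprime_dvd_right hg3
          (Nat.Coprime.pow_left s (by norm_num))).dvd_of_dvd_mul_right h')
      obtain ⟨g, hg, hg0, hgn⟩ := hmk 2 3 hsv (by norm_num)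
      exact false_of_const_four h4 hg (hg0 ▸ hc') fun m hm => by simpa using hgn m hm
    · have hv1 : v = 1 := by
        have hodd : p % 2 = 1 := Nat.odd_iff.mp (hp.out.odd_of_ne_two hp2)
        rcases v with _ | _ | v
        · simp only [pow_zero, one_mul] at hv; omega
        · rfl
        · have h22 : 2 ^ 2 ∣ p - 1 := hv ▸ dvd_mul_of_dvd_left (pow_dvd_pow 2 (by omega)) c
          norm_num at h22
          omega
      obtain ⟨g, hg, hg0, hgn⟩ := hmk 3 3 (by omega) (by norm_num)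
      exact false_of_const_eight hp2 hg (hg0 ▸ hc') fun m hm => by simpa using hgn m hm
  by_cases h3 : l = 3
  · subst h3
    by_cases hp1 : p % 3 = 1
    · obtain ⟨g', hg'⟩ : 3 ∣ G := Nat.dvd_gcd (by omega) (by norm_num)
      have hg4 : g' ∣ 4 := by
        rw [hg'] at hG12
        exact Nat.dvd_of_mul_dvd_mul_left (by norm_num) (hG12 : 3 * g' ∣ 3 * 4)
      have hsv : v + 1 ≤ s + 1 := by
        by_contra hlt
        have h := hlv (s + 1) (by omega)
        rw [hg', ← mul_assoc, mul_comm n 3, mul_assoc, pow_succ, mul_comm] at h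
        have h' : 3 ^ s ∣ n * g' := Nat.dvd_of_mul_dvd_mul_left (by norm_num) h
        exact hcon ((Nat.Coprime.coprime_dvd_right hg4
          (Nat.Coprime.pow_left s (by norm_num))).dvd_of_dvd_mul_right h')
      obtain ⟨g, hg, hg0, hgn⟩ := hmk 1 1 hsv (by norm_num)
      exact false_of_const_three hp1 hg (hg0 ▸ hc') fun m hm => by simpa using hgn m hm
    · have hv0 : v = 0 := by
        rcases v with _ | v
        · rfl
        · have hdvd : 3 ∣ p - 1 := hv ▸ dvd_mul_of_dvd_left (dvd_pow_self 3 (Nat.succ_ne_zero v)) c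
          omega
      obtain ⟨g, hg, hg0, hgn⟩ := hmk 2 1 (by omega) (by norm_num)
      exact false_of_const_odd (k := 1) (u := 2) hp2 (by norm_num) (by norm_num) (by norm_num)
        hg ha ha0 ha1 (hg0 ▸ hc') hgn
  · have hl6 : ¬ (l : ℤ) ∣ 6 := by
      intro h
      have h' : l ∣ 2 * 3 := by exact_mod_cast h
      rcases hl.out.dvd_mul.mp h' with h | h
      · exact h2 ((Nat.prime_dvd_prime_iff_eq hl.out Nat.prime_two).mp h)
      · exact h3 ((Nat.prime_dvd_prime_iff_eq hl.out Nat.prime_three).mp h)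
    have hl12 : Nat.Coprime l G := by
      refine Nat.Coprime.coprime_dvd_right hG12 (hl.out.coprime_iff_not_dvd.mpr fun h => ?_)
      have h' : l ∣ 2 * 2 * 3 := h
      rcases hl.out.dvd_mul.mp h' with h | h
      · rcases hl.out.dvd_mul.mp h with h | h <;>
          exact h2 ((Nat.prime_dvd_prime_iff_eq hl.out Nat.prime_two).mp h)
      · exact h3 ((Nat.prime_dvd_prime_iff_eq hl.out Nat.prime_three).mp h)
    have hsv : v + 1 ≤ s + 0 := by
      by_contra hlt
      exact hcon ((Nat.Coprime.pow_left s hl12).dvd_of_dvd_mul_right (hlv s (by omega)))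
    obtain ⟨g, hg, hg0, hgn⟩ := hmk 1 0 hsv (by simp)
    exact false_of_const_odd (k := 0) (u := 6) hp2 h2 (by norm_num) hl6 hg ha ha0 ha1 (hg0 ▸ hc') hgn

/-- An Eisenstein character modulo `M` forces `M` to divide the Eisenstein numerator. -/
theorem dvd_eisensteinNumerator {M : ℕ} [NeZero M]
    (χ : CuspForm.heckeAlgebra p 2 (∅ : Set ℕ) →+* ZMod M)
    (hχ : ∀ q (hq : q.Prime),
      χ (CuspForms.heckeGen p q hq) = ((1 + heckeWeight p q : ℕ) : ZMod M)) :
    M ∣ ModularCurve.eisensteinNumerator p := by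
  rcases Nat.lt_or_ge 3 p with hp3 | hp3
  · rw [Nat.dvd_iff_prime_pow_dvd_dvd]
    intro l s hl hls
    haveI := Fact.mk hl
    refine prime_pow_dvd_eisensteinNumerator hp3 ((ZMod.castHom hls (ZMod (l ^ s))).comp χ)
      fun q hq => ?_
    rw [RingHom.comp_apply, hχ q hq, map_natCast]
  · haveI := subsingleton_heckeAlgebra hp3
    have h1 : (1 : ZMod M) = 0 := by
      rw [← map_one χ, Subsingleton.elim (1 : CuspForm.heckeAlgebra p 2 (∅ : Set ℕ)) 0, map_zero]
    have h1' : ((1 : ℕ) : ZMod M) = 0 := by rw [Nat.cast_one]; exact h1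
    rw [ZMod.natCast_eq_zero_iff] at h1'
    rw [Nat.dvd_one.mp h1']
    exact one_dvd _

end

end FLTAgent.Eisenstein
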